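import Fermat.Agent.GM.Amalgam.Groups

/-!
# GATE-M / S41-(C1) (helper65): `Γ0(N) ⊔ δ⁻¹Γ0(N)δ = Γ0(N)[1/q]` inside `SL₂(ℚ)`

* `Zq q : Subring ℚ` is `ℤ[1/q]` (`t = m / q ^ k`), `NZq N q : AddSubgroup ℚ` is `N ℤ[1/q]`;
* `DeltaQ N q : Subgroup SLQ` : matrices with entries in `ℤ[1/q]` and lower left entry in `N ℤ[1/q]`;
* `exists_col1`, `exists_col2` : `Γ0(N)` is transitive on `P¹(𝔽_q)` (`q ∤ N`), in the form needed;
* `descent` : the two half-steps of the descent on the `q`-adic height;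
* **`Gam_sup_Gam'_eq`** : for `q ∤ N`, `Gam N ⊔ Gam' N q = DeltaQ N q`;
* `upper_mem`, `lower_mem` : the unipotents `(1 t; 0 1)`, `t ∈ ℤ[1/q]`, and `(1 0; t 1)`,
  `t ∈ N ℤ[1/q]`, lie in `Gam N ⊔ Gam' N q`.
-/

set_option autoImplicit false

namespace Fermat.Agent.GM.Amalgam

open Matrix Matrix.SpecialLinearGroup
open scoped MatrixGroups

section Loc

variable (q : ℕ) [hq : Fact q.Prime]

/-- `ℤ[1/q]` inside `ℚ` -/
def Zq : Subring ℚ where
  carrier := {t | ∃ (k : ℕ) (m : ℤ), t = m / (q : ℚ) ^ k}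
  mul_mem' := by
    rintro _ _ ⟨k, m, rfl⟩ ⟨k', m', rfl⟩
    refine ⟨k + k', m * m', ?_⟩
    push_cast
    rw [pow_add, div_mul_div_comm]
  one_mem' := ⟨0, 1, by simp⟩
  add_mem' := by
    rintro _ _ ⟨k, m, rfl⟩ ⟨k', m', rfl⟩
    refine ⟨k + k', m * (q : ℤ) ^ k' + m' * (q : ℤ) ^ k, ?_⟩
    have := q_ne_zero q
    push_cast
    rw [pow_add]
    field_simp
  zero_mem' := ⟨0, 0, by simp⟩
  neg_mem' := by
    rintro _ ⟨k, m, rfl⟩
    exact ⟨k, -m, by push_cast; ring⟩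

theorem mem_Zq_iff {t : ℚ} : t ∈ Zq q ↔ ∃ (k : ℕ) (m : ℤ), t = m / (q : ℚ) ^ k := Iff.rfl

theorem intCast_mem_Zq (m : ℤ) : (m : ℚ) ∈ Zq q := ⟨0, m, by simp⟩

theorem div_pow_mem_Zq (m : ℤ) (k : ℕ) : (m : ℚ) / (q : ℚ) ^ k ∈ Zq q := ⟨k, m, rfl⟩

/-- `N ℤ[1/q]` inside `ℚ` -/
def NZq (N : ℕ) : AddSubgroup ℚ where
  carrier := {t | ∃ s ∈ Zq q, t = N * s}
  add_mem' := by
    rintro _ _ ⟨s, hs, rfl⟩ ⟨s', hs', rfl⟩
    exact ⟨s + s', (Zq q).add_mem hs hs', by ring⟩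
  zero_mem' := ⟨0, (Zq q).zero_mem, by ring⟩
  neg_mem' := by
    rintro _ ⟨s, hs, rfl⟩
    exact ⟨-s, (Zq q).neg_mem hs, by ring⟩

variable {q} {N : ℕ}

theorem mem_NZq_iff {t : ℚ} :
    t ∈ NZq q N ↔ ∃ (k : ℕ) (m : ℤ), (N : ℤ) ∣ m ∧ t = m / (q : ℚ) ^ k := by
  constructor
  · rintro ⟨_, ⟨k, m, rfl⟩, rfl⟩
    exact ⟨k, N * m, Dvd.intro _ rfl, by push_cast; ring⟩
  · rintro ⟨k, m, ⟨m', rfl⟩, rfl⟩
    exact ⟨m' / (q : ℚ) ^ k, ⟨k, m', rfl⟩, by push_cast; ring⟩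

theorem NZq_le_Zq {t : ℚ} (h : t ∈ NZq q N) : t ∈ Zq q := by
  obtain ⟨s, hs, rfl⟩ := h
  exact (Zq q).mul_mem (by simp) hs

theorem mul_mem_NZq_left {a b : ℚ} (ha : a ∈ Zq q) (hb : b ∈ NZq q N) : a * b ∈ NZq q N := by
  obtain ⟨s, hs, rfl⟩ := hb
  exact ⟨a * s, (Zq q).mul_mem ha hs, by ring⟩

theorem mul_mem_NZq_right {a b : ℚ} (ha : a ∈ NZq q N) (hb : b ∈ Zq q) : a * b ∈ NZq q N := by
  rw [mul_comm]
  exact mul_mem_NZq_left hb ha

end Loc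

/-! ### the group `Γ0(N)[1/q]` -/

section Delta

variable (N q : ℕ) [hq : Fact q.Prime]

theorem inv_entries (x : SLQ) :
    (x⁻¹) 0 0 = x 1 1 ∧ (x⁻¹) 0 1 = - x 0 1 ∧ (x⁻¹) 1 0 = - x 1 0 ∧ (x⁻¹) 1 1 = x 0 0 := by
  refine ⟨?_, ?_, ?_, ?_⟩ <;>
  · rw [Matrix.SpecialLinearGroup.SL2_inv_expl x]
    rfl

/-- `Γ0(N)[1/q]` : entries in `ℤ[1/q]`, lower left entry in `N ℤ[1/q]` -/
def DeltaQ : Subgroup SLQ where
  carrier := {x | (∀ i j, x i j ∈ Zq q) ∧ x 1 0 ∈ NZq q N}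
  mul_mem' := by
    rintro x y ⟨hx, hx10⟩ ⟨hy, hy10⟩
    obtain ⟨e00, e01, e10, e11⟩ := mul_entries x y
    refine ⟨?_, ?_⟩
    · intro i j
      fin_cases i <;> fin_cases j
      · show (x * y) 0 0 ∈ Zq q
        rw [e00]
        exact (Zq q).add_mem ((Zq q).mul_mem (hx 0 0) (hy 0 0)) ((Zq q).mul_mem (hx 0 1) (hy 1 0))
      · show (x * y) 0 1 ∈ Zq q
        rw [e01]
        exact (Zq q).add_mem ((Zq q).mul_mem (hx 0 0) (hy 0 1)) ((Zq q).mul_mem (hx 0 1) (hy 1 1))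
      · show (x * y) 1 0 ∈ Zq q
        rw [e10]
        exact (Zq q).add_mem ((Zq q).mul_mem (hx 1 0) (hy 0 0)) ((Zq q).mul_mem (hx 1 1) (hy 1 0))
      · show (x * y) 1 1 ∈ Zq q
        rw [e11]
        exact (Zq q).add_mem ((Zq q).mul_mem (hx 1 0) (hy 0 1)) ((Zq q).mul_mem (hx 1 1) (hy 1 1))
    · show (x * y) 1 0 ∈ NZq q N
      rw [e10]
      exact (NZq q N).add_mem (mul_mem_NZq_right hx10 (hy 0 0)) (mul_mem_NZq_left (hx 1 1) hy10)
  one_mem' := by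
    refine ⟨?_, ?_⟩
    · intro i j
      fin_cases i <;> fin_cases j
      · show (1 : SLQ) 0 0 ∈ Zq q
        simp
      · show (1 : SLQ) 0 1 ∈ Zq q
        simp
      · show (1 : SLQ) 1 0 ∈ Zq q
        simp
      · show (1 : SLQ) 1 1 ∈ Zq q
        simp
    · show (1 : SLQ) 1 0 ∈ NZq q N
      simp
  inv_mem' := by
    rintro x ⟨hx, hx10⟩
    obtain ⟨e00, e01, e10, e11⟩ := inv_entries x
    refine ⟨?_, ?_⟩
    · intro i j
      fin_cases i <;> fin_cases j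
      · show (x⁻¹) 0 0 ∈ Zq q
        rw [e00]; exact hx 1 1
      · show (x⁻¹) 0 1 ∈ Zq q
        rw [e01]; exact (Zq q).neg_mem (hx 0 1)
      · show (x⁻¹) 1 0 ∈ Zq q
        rw [e10]; exact (Zq q).neg_mem (hx 1 0)
      · show (x⁻¹) 1 1 ∈ Zq q
        rw [e11]; exact hx 0 0
    · show (x⁻¹) 1 0 ∈ NZq q N
      rw [e10]; exact (NZq q N).neg_mem hx10

variable {N q}

theorem mem_DeltaQ_iff {x : SLQ} :
    x ∈ DeltaQ N q ↔ (∀ i j, x i j ∈ Zq q) ∧ x 1 0 ∈ NZq q N := Iff.rfl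

theorem Gam_le_DeltaQ : Gam N ≤ DeltaQ N q := by
  intro x hx
  obtain ⟨g, ⟨t, ht⟩, rfl⟩ := mem_Gam_iff.1 hx
  refine ⟨fun i j => ?_, ?_⟩
  · rw [castQ_apply]
    exact intCast_mem_Zq q _
  · rw [castQ_apply, ht]
    exact ⟨t, intCast_mem_Zq q t, by push_cast; ring⟩

theorem Gam'_le_DeltaQ : Gam' N q ≤ DeltaQ N q := by
  intro x hx
  obtain ⟨g, ⟨t, ht⟩, rfl⟩ := mem_Gam'_iff.1 hx
  have hqZ : (q : ℚ) ∈ Zq q := by simp
  refine ⟨fun i j => ?_, ?_⟩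
  · fin_cases i <;> fin_cases j
    · show (conjD q (castQ g)) 0 0 ∈ Zq q
      rw [conjD_00, castQ_apply]
      exact intCast_mem_Zq q _
    · show (conjD q (castQ g)) 0 1 ∈ Zq q
      rw [conjD_01, castQ_apply]
      exact ⟨1, g 0 1, by simp⟩
    · show (conjD q (castQ g)) 1 0 ∈ Zq q
      rw [conjD_10, castQ_apply]
      exact (Zq q).mul_mem hqZ (intCast_mem_Zq q _)
    · show (conjD q (castQ g)) 1 1 ∈ Zq q
      rw [conjD_11, castQ_apply]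
      exact intCast_mem_Zq q _
  · show (conjD q (castQ g)) 1 0 ∈ NZq q N
    rw [conjD_10, castQ_apply, ht]
    exact ⟨q * t, (Zq q).mul_mem hqZ (intCast_mem_Zq q t), by push_cast; ring⟩

theorem sup_le_DeltaQ : Gam N ⊔ Gam' N q ≤ DeltaQ N q :=
  sup_le Gam_le_DeltaQ Gam'_le_DeltaQ

end Delta

/-! ### transitivity on `P¹(𝔽_q)` -/

section Col

theorem field_col1 {F : Type*} [Field F] {a b c d n : F} (hn : n ≠ 0)
    (hdet : a * d - b * c = 0) (h : ¬ (a = 0 ∧ c = 0)) :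
    ∃ m : F, a * (1 + m * n) + b * n = 0 ∧ c * (1 + m * n) + d * n = 0 := by
  by_cases ha : a = 0
  · have hc : c ≠ 0 := fun hc => h ⟨ha, hc⟩
    have hb : b = 0 := by
      have : b * c = 0 := by
        rw [ha] at hdet
        linear_combination -hdet
      exact (mul_eq_zero.1 this).resolve_right hc
    refine ⟨(-d * n / c - 1) / n, ?_, ?_⟩
    · rw [ha, hb]; ring
    · field_simp
      ring
  · refine ⟨(-b * n / a - 1) / n, ?_, ?_⟩
    · field_simp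
      ring
    · field_simp
      linear_combination n * hdet

theorem field_col2 {F : Type*} [Field F] {a b c d n : F} (hn : n ≠ 0)
    (hdet : a * d - b * c = 0) (h : ¬ (b = 0 ∧ d = 0)) :
    ∃ m : F, a + b * (1 + n * m) = 0 ∧ c + d * (1 + n * m) = 0 := by
  by_cases hb : b = 0
  · have hd : d ≠ 0 := fun hd => h ⟨hb, hd⟩
    have ha : a = 0 := by
      have : a * d = 0 := by
        rw [hb] at hdet
        linear_combination hdet
      exact (mul_eq_zero.1 this).resolve_right hd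
    refine ⟨(-c / d - 1) / n, ?_, ?_⟩
    · rw [ha, hb]; ring
    · field_simp
      ring
  · refine ⟨(-a / b - 1) / n, ?_, ?_⟩
    · field_simp
      ring
    · field_simp
      linear_combination -hdet

variable {N q : ℕ} [hq : Fact q.Prime]

theorem natCast_zmod_ne_zero (hqN : ¬ q ∣ N) : ((N : ℤ) : ZMod q) ≠ 0 := by
  rw [Ne, ZMod.intCast_zmod_eq_zero_iff_dvd]
  exact fun h => hqN (by exact_mod_cast h)

/-- some `g ∈ Γ0(N)` moves the first column of `(A B; C D)` (singular mod `q`) to `0 mod q` -/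
theorem exists_col1 (hqN : ¬ q ∣ N) (A B C D : ℤ) (hdet : (q : ℤ) ∣ A * D - B * C) :
    ∃ g : SL(2, ℤ), (N : ℤ) ∣ g 1 0 ∧ (q : ℤ) ∣ A * g 0 0 + B * g 1 0 ∧
      (q : ℤ) ∣ C * g 0 0 + D * g 1 0 := by
  by_cases h : (q : ℤ) ∣ A ∧ (q : ℤ) ∣ C
  · refine ⟨1, by simp, ?_, ?_⟩
    · simpa using h.1
    · simpa using h.2
  · have hdet' : (A : ZMod q) * D - B * C = 0 := by
      have := (ZMod.intCast_zmod_eq_zero_iff_dvd _ q).2 hdet
      simpa using this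
    have h' : ¬ ((A : ZMod q) = 0 ∧ (C : ZMod q) = 0) := by
      rw [ZMod.intCast_zmod_eq_zero_iff_dvd, ZMod.intCast_zmod_eq_zero_iff_dvd]
      exact h
    obtain ⟨m', hm1, hm2⟩ := field_col1 (natCast_zmod_ne_zero hqN) hdet' h'
    obtain ⟨m, rfl⟩ := ZMod.intCast_surjective m'
    refine ⟨mkZ (1 + m * N) m N 1 (by ring), by simp, ?_, ?_⟩
    · rw [← ZMod.intCast_zmod_eq_zero_iff_dvd]
      simp only [mkZ_00, mkZ_10]
      push_cast
      simpa using hm1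
    · rw [← ZMod.intCast_zmod_eq_zero_iff_dvd]
      simp only [mkZ_00, mkZ_10]
      push_cast
      simpa using hm2

/-- some `g ∈ Γ0(N)` moves the second column of `(A B; C D)` (singular mod `q`) to `0 mod q` -/
theorem exists_col2 (hqN : ¬ q ∣ N) (A B C D : ℤ) (hdet : (q : ℤ) ∣ A * D - B * C) :
    ∃ g : SL(2, ℤ), (N : ℤ) ∣ g 1 0 ∧ (q : ℤ) ∣ A * g 0 1 + B * g 1 1 ∧
      (q : ℤ) ∣ C * g 0 1 + D * g 1 1 := by
  by_cases h : (q : ℤ) ∣ B ∧ (q : ℤ) ∣ D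
  · refine ⟨1, by simp, ?_, ?_⟩
    · simpa using h.1
    · simpa using h.2
  · have hdet' : (A : ZMod q) * D - B * C = 0 := by
      have := (ZMod.intCast_zmod_eq_zero_iff_dvd _ q).2 hdet
      simpa using this
    have h' : ¬ ((B : ZMod q) = 0 ∧ (D : ZMod q) = 0) := by
      rw [ZMod.intCast_zmod_eq_zero_iff_dvd, ZMod.intCast_zmod_eq_zero_iff_dvd]
      exact h
    obtain ⟨m', hm1, hm2⟩ := field_col2 (natCast_zmod_ne_zero hqN) hdet' h'
    obtain ⟨m, rfl⟩ := ZMod.intCast_surjective m'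
    refine ⟨mkZ 1 1 (N * m) (1 + N * m) (by ring), by simp, ?_, ?_⟩
    · rw [← ZMod.intCast_zmod_eq_zero_iff_dvd]
      simp only [mkZ_01, mkZ_11]
      push_cast
      simpa using hm1
    · rw [← ZMod.intCast_zmod_eq_zero_iff_dvd]
      simp only [mkZ_01, mkZ_11]
      push_cast
      simpa using hm2

end Col

/-! ### the descent -/

section Descent

variable {N q : ℕ} [hq : Fact q.Prime]

/-- even form: `x = q^{-k} (A B; C D)` -/
def EvenForm (N q : ℕ) [Fact q.Prime] (k : ℕ) : Prop :=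
  ∀ (x : SLQ) (A B C D : ℤ), x 0 0 = A / (q : ℚ) ^ k → x 0 1 = B / (q : ℚ) ^ k →
    x 1 0 = C / (q : ℚ) ^ k → x 1 1 = D / (q : ℚ) ^ k → (N : ℤ) ∣ C → x ∈ Gam N ⊔ Gam' N q

/-- odd form: `x = q^{-k-1} (A B; C D) diag(q, 1)` -/
def OddForm (N q : ℕ) [Fact q.Prime] (k : ℕ) : Prop :=
  ∀ (x : SLQ) (A B C D : ℤ), x 0 0 = A / (q : ℚ) ^ k → x 0 1 = B / (q : ℚ) ^ (k + 1) →
    x 1 0 = C / (q : ℚ) ^ k → x 1 1 = D / (q : ℚ) ^ (k + 1) → (N : ℤ) ∣ C →
    x ∈ Gam N ⊔ Gam' N q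

theorem det_entries (x : SLQ) : x 0 0 * x 1 1 - x 0 1 * x 1 0 = 1 := by
  have := x.det_coe
  rwa [Matrix.det_fin_two] at this

theorem coprime_N_q (hqN : ¬ q ∣ N) : IsCoprime (N : ℤ) (q : ℤ) := by
  rw [Int.isCoprime_iff_gcd_eq_one, Int.gcd_natCast_natCast]
  exact Nat.Coprime.symm ((Nat.Prime.coprime_iff_not_dvd hq.out).2 hqN)

theorem evenForm_zero : EvenForm N q 0 := by
  intro x A B C D h00 h01 h10 h11 hC
  simp only [pow_zero, div_one] at h00 h01 h10 h11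
  have hdet : A * D - B * C = 1 := by
    have := det_entries x
    rw [h00, h01, h10, h11] at this
    exact_mod_cast this
  refine Subgroup.mem_sup_left (mem_Gam_iff.2 ⟨mkZ A B C D hdet, hC, ?_⟩)
  ext i j
  fin_cases i <;> fin_cases j
  · simpa using h00.symm
  · simpa using h01.symm
  · simpa using h10.symm
  · simpa using h11.symm

theorem oddForm_of_evenForm (hqN : ¬ q ∣ N) {k : ℕ} (hE : EvenForm N q k) : OddForm N q k := by
  intro x A B C D h00 h01 h10 h11 hC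
  have hq0 := q_ne_zero q
  have hqk : (q : ℚ) ^ k ≠ 0 := pow_ne_zero _ hq0
  have hdet : (q : ℤ) ∣ A * D - B * C := by
    have h := det_entries x
    rw [h00, h01, h10, h11] at h
    have h2 : ((A * D - B * C : ℤ) : ℚ) = (((q : ℤ) ^ (2 * k + 1) : ℤ) : ℚ) := by
      push_cast
      field_simp at h
      rw [pow_succ] at h ⊢
      rw [show (q : ℚ) ^ (2 * k) = (q : ℚ) ^ k * (q : ℚ) ^ k by rw [← pow_add]; ring_nf]
      linear_combination h
    have h3 : A * D - B * C = (q : ℤ) ^ (2 * k + 1) := by exact_mod_cast h2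
    rw [h3]
    exact dvd_pow_self _ (by omega)
  obtain ⟨g, hgN, ⟨B1, hB1⟩, ⟨D1, hD1⟩⟩ := exists_col2 hqN A B C D hdet
  set γ' : SLQ := conjD q (castQ g) with hγ'
  have hγ'mem : γ' ∈ Gam' N q := mem_Gam'_iff.2 ⟨g, hgN, rfl⟩
  obtain ⟨e00, e01, e10, e11⟩ := mul_entries x γ'
  have hy : x * γ' ∈ Gam N ⊔ Gam' N q := by
    refine hE (x * γ') (A * g 0 0 + B * g 1 0) B1 (C * g 0 0 + D * g 1 0) D1 ?_ ?_ ?_ ?_ ?_
    · rw [e00, hγ', conjD_00, conjD_10, castQ_apply, castQ_apply, h00, h01]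
      push_cast
      rw [pow_succ]
      field_simp
    · rw [e01, hγ', conjD_01, conjD_11, castQ_apply, castQ_apply, h00, h01]
      have hB1' : (A : ℚ) * (g 0 1 : ℤ) + B * (g 1 1 : ℤ) = q * B1 := by exact_mod_cast hB1
      rw [pow_succ]
      field_simp
      linear_combination hB1'
    · rw [e10, hγ', conjD_00, conjD_10, castQ_apply, castQ_apply, h10, h11]
      push_cast
      rw [pow_succ]
      field_simp
    · rw [e11, hγ', conjD_01, conjD_11, castQ_apply, castQ_apply, h10, h11]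
      have hD1' : (C : ℚ) * (g 0 1 : ℤ) + D * (g 1 1 : ℤ) = q * D1 := by exact_mod_cast hD1
      rw [pow_succ]
      field_simp
      linear_combination hD1'
    · exact dvd_add (Dvd.dvd.mul_right hC _) (Dvd.dvd.mul_left hgN _)
  have hγ'Δ : γ' ∈ Gam N ⊔ Gam' N q := Subgroup.mem_sup_right hγ'mem
  have := Subgroup.mul_mem _ hy (Subgroup.inv_mem _ hγ'Δ)
  simpa using this

theorem evenForm_succ_of_oddForm (hqN : ¬ q ∣ N) {k : ℕ} (hO : OddForm N q k) :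
    EvenForm N q (k + 1) := by
  intro x A B C D h00 h01 h10 h11 hC
  have hq0 := q_ne_zero q
  have hqk : (q : ℚ) ^ k ≠ 0 := pow_ne_zero _ hq0
  have hdet : (q : ℤ) ∣ A * D - B * C := by
    have h := det_entries x
    rw [h00, h01, h10, h11] at h
    have h2 : ((A * D - B * C : ℤ) : ℚ) = (((q : ℤ) ^ (2 * (k + 1)) : ℤ) : ℚ) := by
      push_cast
      field_simp at h
      rw [show (q : ℚ) ^ (2 * (k + 1)) = (q : ℚ) ^ (k + 1) * (q : ℚ) ^ (k + 1) by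
        rw [← pow_add]; ring_nf]
      linear_combination h
    have h3 : A * D - B * C = (q : ℤ) ^ (2 * (k + 1)) := by exact_mod_cast h2
    rw [h3]
    exact dvd_pow_self _ (by omega)
  obtain ⟨g, hgN, ⟨A1, hA1⟩, ⟨C1, hC1⟩⟩ := exists_col1 hqN A B C D hdet
  have hgmem : castQ g ∈ Gam N := mem_Gam_iff.2 ⟨g, hgN, rfl⟩
  obtain ⟨e00, e01, e10, e11⟩ := mul_entries x (castQ g)
  have hNC1 : (N : ℤ) ∣ C1 := by
    have h1 : (N : ℤ) ∣ (q : ℤ) * C1 := by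
      rw [← hC1]
      exact dvd_add (Dvd.dvd.mul_right hC _) (Dvd.dvd.mul_left hgN _)
    exact (coprime_N_q hqN).dvd_of_dvd_mul_left h1
  have hy : x * castQ g ∈ Gam N ⊔ Gam' N q := by
    refine hO (x * castQ g) A1 (A * g 0 1 + B * g 1 1) C1 (C * g 0 1 + D * g 1 1) ?_ ?_ ?_ ?_ hNC1
    · rw [e00, castQ_apply, castQ_apply, h00, h01]
      have hA1' : (A : ℚ) * (g 0 0 : ℤ) + B * (g 1 0 : ℤ) = q * A1 := by exact_mod_cast hA1
      rw [pow_succ]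
      field_simp
      linear_combination hA1'
    · rw [e01, castQ_apply, castQ_apply, h00, h01]
      push_cast
      field_simp
    · rw [e10, castQ_apply, castQ_apply, h10, h11]
      have hC1' : (C : ℚ) * (g 0 0 : ℤ) + D * (g 1 0 : ℤ) = q * C1 := by exact_mod_cast hC1
      rw [pow_succ]
      field_simp
      linear_combination hC1'
    · rw [e11, castQ_apply, castQ_apply, h10, h11]
      push_cast
      field_simp
  have hgΔ : castQ g ∈ Gam N ⊔ Gam' N q := Subgroup.mem_sup_left hgmem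
  have := Subgroup.mul_mem _ hy (Subgroup.inv_mem _ hgΔ)
  simpa using this

theorem evenForm_all (hqN : ¬ q ∣ N) (k : ℕ) : EvenForm N q k := by
  induction k with
  | zero => exact evenForm_zero
  | succ k ih => exact evenForm_succ_of_oddForm hqN (oddForm_of_evenForm hqN ih)

/-- **Generation.**  For `q ∤ N`, `Γ0(N) ⊔ δ⁻¹Γ0(N)δ = Γ0(N)[1/q]`. -/
theorem Gam_sup_Gam'_eq (hqN : ¬ q ∣ N) : Gam N ⊔ Gam' N q = DeltaQ N q := by
  apply le_antisymm sup_le_DeltaQ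
  intro x hx
  obtain ⟨hx, hx10⟩ := hx
  obtain ⟨k00, m00, h00⟩ := hx 0 0
  obtain ⟨k01, m01, h01⟩ := hx 0 1
  obtain ⟨k10, m10, hN10, h10⟩ := mem_NZq_iff.1 hx10
  obtain ⟨k11, m11, h11⟩ := hx 1 1
  have hq0 := q_ne_zero q
  have hqZ : (q : ℤ) ≠ 0 := by exact_mod_cast hq.out.ne_zero
  set k := k00 + k01 + k10 + k11 with hk
  have key : ∀ (m : ℤ) (j : ℕ) (hj : j ≤ k),
      (m : ℚ) / (q : ℚ) ^ j = ((m * (q : ℤ) ^ (k - j) : ℤ) : ℚ) / (q : ℚ) ^ k := by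
    intro m j hj
    have : (q : ℚ) ^ k = (q : ℚ) ^ j * (q : ℚ) ^ (k - j) := by
      rw [← pow_add]; congr 1; omega
    rw [this]
    push_cast
    have h1 : (q : ℚ) ^ j ≠ 0 := pow_ne_zero _ hq0
    have h2 : (q : ℚ) ^ (k - j) ≠ 0 := pow_ne_zero _ hq0
    field_simp
  refine evenForm_all hqN k x (m00 * (q : ℤ) ^ (k - k00)) (m01 * (q : ℤ) ^ (k - k01))
    (m10 * (q : ℤ) ^ (k - k10)) (m11 * (q : ℤ) ^ (k - k11)) ?_ ?_ ?_ ?_
    (Dvd.dvd.mul_right hN10 _)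
  · rw [h00]; exact key m00 k00 (by omega)
  · rw [h01]; exact key m01 k01 (by omega)
  · rw [h10]; exact key m10 k10 (by omega)
  · rw [h11]; exact key m11 k11 (by omega)

theorem mem_sup_iff (hqN : ¬ q ∣ N) {x : SLQ} :
    x ∈ Gam N ⊔ Gam' N q ↔ (∀ i j, x i j ∈ Zq q) ∧ x 1 0 ∈ NZq q N := by
  rw [Gam_sup_Gam'_eq hqN]
  exact mem_DeltaQ_iff

/-- a matrix in `SL₂(ℚ)` from its entries -/
def mkQ (a b c d : ℚ) (h : a * d - b * c = 1) : SLQ :=
  ⟨!![a, b; c, d], by rw [Matrix.det_fin_two_of]; exact h⟩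

@[simp] theorem mkQ_00 (a b c d : ℚ) (h) : (mkQ a b c d h) 0 0 = a := rfl
@[simp] theorem mkQ_01 (a b c d : ℚ) (h) : (mkQ a b c d h) 0 1 = b := rfl
@[simp] theorem mkQ_10 (a b c d : ℚ) (h) : (mkQ a b c d h) 1 0 = c := rfl
@[simp] theorem mkQ_11 (a b c d : ℚ) (h) : (mkQ a b c d h) 1 1 = d := rfl

/-- the upper unipotent `(1 t; 0 1)` -/
def upperQ (t : ℚ) : SLQ := mkQ 1 t 0 1 (by ring)

/-- the lower unipotent `(1 0; t 1)` -/
def lowerQ (t : ℚ) : SLQ := mkQ 1 0 t 1 (by ring)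

theorem upper_mem (hqN : ¬ q ∣ N) {t : ℚ} (ht : t ∈ Zq q) : upperQ t ∈ Gam N ⊔ Gam' N q := by
  rw [mem_sup_iff hqN]
  refine ⟨fun i j => ?_, ?_⟩
  · fin_cases i <;> fin_cases j
    · exact (Zq q).one_mem
    · exact ht
    · exact (Zq q).zero_mem
    · exact (Zq q).one_mem
  · exact (NZq q N).zero_mem

theorem lower_mem (hqN : ¬ q ∣ N) {t : ℚ} (ht : t ∈ NZq q N) : lowerQ t ∈ Gam N ⊔ Gam' N q := by
  rw [mem_sup_iff hqN]
  refine ⟨fun i j => ?_, ?_⟩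
  · fin_cases i <;> fin_cases j
    · exact (Zq q).one_mem
    · exact (Zq q).zero_mem
    · exact NZq_le_Zq ht
    · exact (Zq q).one_mem
  · exact ht

end Descent

end Fermat.Agent.GM.Amalgam
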