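import Fermat.Agent.GM.Amalgam.PingPong
import Fermat.Agent.GM.Amalgam.Generation

/-!
# GATE-M / S41-(C1) (helper65): the amalgam theorem for `Γ0(N)[1/q]`, final forms

`q` prime, `q ∤ N`.  `DeltaQ N q = Γ0(N)[1/q] ≤ SL₂(ℚ)`.

* **`existsUnique_glue_DeltaQ`** : homomorphisms `a : Gam N →* A`, `a' : Gam' N q →* A` (ANY group `A`)
  which agree on `GamE N q` glue to a UNIQUE `Φ : DeltaQ N q →* A`;
* integral form: `gamEquiv : Γ0(N) ≃* Gam N`, `gam'Equiv : Γ0(N) ≃* Gam' N q`,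
  `degenOne, degenDelta : Γ0(N q) →* Γ0(N)` (inclusion, and conjugation by `δ = diag(q, 1)`,
  `g ↦ (a, q b; c / q, d)`), and
  **`existsUnique_glue_int`** : `a b : Γ0(N) →* A` with `a ∘ degenOne = b ∘ degenDelta` glue to a unique
  `Φ : DeltaQ N q →* A` with `Φ (castQ g) = a g` and `Φ (δ⁻¹ (castQ g) δ) = b g`;
* see `Elementary.lean` for the elementary matrices under a glued homomorphism.
-/

set_option autoImplicit false

namespace Fermat.Agent.GM.Amalgam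

open Matrix Matrix.SpecialLinearGroup CongruenceSubgroup
open scoped MatrixGroups

variable {N q : ℕ} [hq : Fact q.Prime]

/-- **The amalgam theorem for `Γ0(N)[1/q]`.** -/
theorem existsUnique_glue_DeltaQ (hqN : ¬ q ∣ N) {A : Type*} [Group A] (a : ↥(Gam N) →* A)
    (a' : ↥(Gam' N q) →* A)
    (hag : ∀ (x : SLQ) (hx : x ∈ GamE N q),
      a ⟨x, GamE_le_Gam hx⟩ = a' ⟨x, GamE_le_Gam' hx⟩) :
    ∃! Φ : ↥(DeltaQ N q) →* A,
      (∀ (x : SLQ) (hx : x ∈ Gam N), Φ ⟨x, Gam_le_DeltaQ hx⟩ = a ⟨x, hx⟩) ∧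
      (∀ (x : SLQ) (hx : x ∈ Gam' N q), Φ ⟨x, Gam'_le_DeltaQ hx⟩ = a' ⟨x, hx⟩) := by
  obtain ⟨Φ₀, h1, h2⟩ := exists_glue_Gamma0 hqN a a' hag
  have heq := Gam_sup_Gam'_eq (N := N) (q := q) hqN
  refine ⟨Φ₀.comp (Subgroup.inclusion (le_of_eq heq.symm)), ⟨?_, ?_⟩, ?_⟩
  · intro x hx
    exact h1 x hx
  · intro x hx
    exact h2 x hx
  · rintro Ψ ⟨k1, k2⟩
    have : Ψ.comp (Subgroup.inclusion (le_of_eq heq)) = Φ₀ := by
      apply hom_ext_sup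
      · intro x hx
        rw [h1 x hx]
        exact k1 x hx
      · intro x hx
        rw [h2 x hx]
        exact k2 x hx
    rw [← this]
    ext ⟨x, hx⟩
    rfl

/-! ### integral form -/

/-- `Γ0(N) ≃* Gam N` -/
noncomputable def gamEquiv (N : ℕ) : ↥(Gamma0 N) ≃* ↥(Gam N) :=
  (Gamma0 N).equivMapOfInjective castQ castQ_injective

@[simp]
theorem gamEquiv_coe (g : ↥(Gamma0 N)) : ((gamEquiv N g : ↥(Gam N)) : SLQ) = castQ (g : SL(2, ℤ)) :=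
  rfl

/-- `Γ0(N) ≃* Gam' N q`, `g ↦ δ⁻¹ g δ` -/
noncomputable def gam'Equiv (N q : ℕ) [Fact q.Prime] : ↥(Gamma0 N) ≃* ↥(Gam' N q) :=
  (gamEquiv N).trans ((Gam N).equivMapOfInjective (conjD q) (conjD_injective q))

@[simp]
theorem gam'Equiv_coe (g : ↥(Gamma0 N)) :
    ((gam'Equiv N q g : ↥(Gam' N q)) : SLQ) = conjD q (castQ (g : SL(2, ℤ))) :=
  rfl

/-- `Γ0(N q) ≃* GamE N q` -/
noncomputable def gamEEquiv (N q : ℕ) : ↥(Gamma0 (N * q)) ≃* ↥(GamE N q) :=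
  (Gamma0 (N * q)).equivMapOfInjective castQ castQ_injective

omit hq in
@[simp]
theorem gamEEquiv_coe (g : ↥(Gamma0 (N * q))) :
    ((gamEEquiv N q g : ↥(GamE N q)) : SLQ) = castQ (g : SL(2, ℤ)) :=
  rfl

/-- the inclusion `Γ0(N q) → Γ0(N)` -/
noncomputable def degenOne (N q : ℕ) : ↥(Gamma0 (N * q)) →* ↥(Gamma0 N) :=
  ((gamEquiv N).symm.toMonoidHom.comp (Subgroup.inclusion GamE_le_Gam)).comp
    (gamEEquiv N q).toMonoidHom

/-- conjugation by `δ = diag(q, 1)` : `Γ0(N q) → Γ0(N)`, `g ↦ δ g δ⁻¹ = (a, q b; c / q, d)` -/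
noncomputable def degenDelta (N q : ℕ) [Fact q.Prime] : ↥(Gamma0 (N * q)) →* ↥(Gamma0 N) :=
  ((gam'Equiv N q).symm.toMonoidHom.comp (Subgroup.inclusion GamE_le_Gam')).comp
    (gamEEquiv N q).toMonoidHom

omit hq in
theorem castQ_degenOne (g : ↥(Gamma0 (N * q))) :
    castQ ((degenOne N q g : ↥(Gamma0 N)) : SL(2, ℤ)) = castQ (g : SL(2, ℤ)) := by
  have h := (gamEquiv N).apply_symm_apply
    (Subgroup.inclusion GamE_le_Gam (gamEEquiv N q g))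
  have h2 := congrArg (fun z : ↥(Gam N) => (z : SLQ)) h
  exact h2

omit hq in
theorem degenOne_coe (g : ↥(Gamma0 (N * q))) :
    ((degenOne N q g : ↥(Gamma0 N)) : SL(2, ℤ)) = (g : SL(2, ℤ)) :=
  castQ_injective (castQ_degenOne g)

theorem conjD_castQ_degenDelta (g : ↥(Gamma0 (N * q))) :
    conjD q (castQ ((degenDelta N q g : ↥(Gamma0 N)) : SL(2, ℤ))) = castQ (g : SL(2, ℤ)) := by
  have h := (gam'Equiv N q).apply_symm_apply
    (Subgroup.inclusion GamE_le_Gam' (gamEEquiv N q g))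
  have h2 := congrArg (fun z : ↥(Gam' N q) => (z : SLQ)) h
  exact h2

/-- the entries of `δ g δ⁻¹` -/
theorem degenDelta_entries (g : ↥(Gamma0 (N * q))) :
    ((degenDelta N q g : ↥(Gamma0 N)) : SL(2, ℤ)) 0 0 = (g : SL(2, ℤ)) 0 0 ∧
    ((degenDelta N q g : ↥(Gamma0 N)) : SL(2, ℤ)) 0 1 = q * (g : SL(2, ℤ)) 0 1 ∧
    (q : ℤ) * ((degenDelta N q g : ↥(Gamma0 N)) : SL(2, ℤ)) 1 0 = (g : SL(2, ℤ)) 1 0 ∧
    ((degenDelta N q g : ↥(Gamma0 N)) : SL(2, ℤ)) 1 1 = (g : SL(2, ℤ)) 1 1 := by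
  have h := conjD_castQ_degenDelta g
  have hq0 := q_ne_zero q
  have h00 := congrArg (fun z : SLQ => z 0 0) h
  have h01 := congrArg (fun z : SLQ => z 0 1) h
  have h10 := congrArg (fun z : SLQ => z 1 0) h
  have h11 := congrArg (fun z : SLQ => z 1 1) h
  simp only [conjD_00, conjD_01, conjD_10, conjD_11, castQ_apply] at h00 h01 h10 h11
  refine ⟨by exact_mod_cast h00, ?_, by exact_mod_cast h10, by exact_mod_cast h11⟩
  have : (((degenDelta N q g : ↥(Gamma0 N)) : SL(2, ℤ)) 0 1 : ℚ) = q * ((g : SL(2, ℤ)) 0 1 : ℤ) := by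
    rw [← h01]
    field_simp
  exact_mod_cast this

theorem castQ_mem_Gam (g : ↥(Gamma0 N)) : castQ (g : SL(2, ℤ)) ∈ Gam N :=
  Subgroup.mem_map_of_mem _ g.2

theorem conjD_castQ_mem_Gam' (g : ↥(Gamma0 N)) : conjD q (castQ (g : SL(2, ℤ))) ∈ Gam' N q :=
  Subgroup.mem_map_of_mem _ (castQ_mem_Gam g)

theorem gamEquiv_apply (g : ↥(Gamma0 N)) :
    gamEquiv N g = ⟨castQ (g : SL(2, ℤ)), castQ_mem_Gam g⟩ := rfl

theorem gam'Equiv_apply (g : ↥(Gamma0 N)) :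
    gam'Equiv N q g = ⟨conjD q (castQ (g : SL(2, ℤ))), conjD_castQ_mem_Gam' g⟩ := rfl

/-- **The amalgam theorem, integral form.** -/
theorem existsUnique_glue_int (hqN : ¬ q ∣ N) {A : Type*} [Group A] (a b : ↥(Gamma0 N) →* A)
    (hab : ∀ g : ↥(Gamma0 (N * q)), a (degenOne N q g) = b (degenDelta N q g)) :
    ∃! Φ : ↥(DeltaQ N q) →* A,
      (∀ g : ↥(Gamma0 N), Φ ⟨castQ (g : SL(2, ℤ)), Gam_le_DeltaQ (castQ_mem_Gam g)⟩ = a g) ∧
      (∀ g : ↥(Gamma0 N),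
        Φ ⟨conjD q (castQ (g : SL(2, ℤ))), Gam'_le_DeltaQ (conjD_castQ_mem_Gam' g)⟩ = b g) := by
  let α : ↥(Gam N) →* A := a.comp (gamEquiv N).symm.toMonoidHom
  let α' : ↥(Gam' N q) →* A := b.comp (gam'Equiv N q).symm.toMonoidHom
  have hag : ∀ (x : SLQ) (hx : x ∈ GamE N q),
      α ⟨x, GamE_le_Gam hx⟩ = α' ⟨x, GamE_le_Gam' hx⟩ := by
    intro x hx
    obtain ⟨g, hg⟩ := (gamEEquiv N q).surjective ⟨x, hx⟩
    have hx' : castQ (g : SL(2, ℤ)) = x := congrArg (fun z : ↥(GamE N q) => (z : SLQ)) hg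
    subst hx'
    exact hab g
  have hα : ∀ g : ↥(Gamma0 N), α ⟨castQ (g : SL(2, ℤ)), castQ_mem_Gam g⟩ = a g := by
    intro g
    show a ((gamEquiv N).symm ⟨castQ (g : SL(2, ℤ)), castQ_mem_Gam g⟩) = a g
    rw [← gamEquiv_apply, MulEquiv.symm_apply_apply]
  have hα' : ∀ g : ↥(Gamma0 N),
      α' ⟨conjD q (castQ (g : SL(2, ℤ))), conjD_castQ_mem_Gam' g⟩ = b g := by
    intro g
    show b ((gam'Equiv N q).symm ⟨conjD q (castQ (g : SL(2, ℤ))), conjD_castQ_mem_Gam' g⟩) = b g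
    rw [← gam'Equiv_apply, MulEquiv.symm_apply_apply]
  obtain ⟨Φ, ⟨h1, h2⟩, huniq⟩ := existsUnique_glue_DeltaQ hqN α α' hag
  refine ⟨Φ, ⟨?_, ?_⟩, ?_⟩
  · intro g
    rw [h1 _ (castQ_mem_Gam g), hα]
  · intro g
    rw [h2 _ (conjD_castQ_mem_Gam' g), hα']
  · rintro Ψ ⟨k1, k2⟩
    apply huniq
    refine ⟨?_, ?_⟩
    · intro x hx
      obtain ⟨g, hg⟩ := (gamEquiv N).surjective ⟨x, hx⟩
      have hx' : castQ (g : SL(2, ℤ)) = x := congrArg (fun z : ↥(Gam N) => (z : SLQ)) hg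
      subst hx'
      rw [k1 g, hα]
    · intro x hx
      obtain ⟨g, hg⟩ := (gam'Equiv N q).surjective ⟨x, hx⟩
      have hx' : conjD q (castQ (g : SL(2, ℤ))) = x :=
        congrArg (fun z : ↥(Gam' N q) => (z : SLQ)) hg
      subst hx'
      rw [k2 g, hα']

end Fermat.Agent.GM.Amalgam
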