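import Fermat.Agent.GM.Amalgam.Main

/-!
# GATE-M / S41-(C1) (helper65): elementary matrices of `Γ0(N)[1/q]` under a glued homomorphism

`upperQ t = (1 t; 0 1)`, `lowerQ t = (1 0; t 1)`, `diagQ q = diag(q, 1/q)`; `uZ m`, `lZ m` are
the integral unipotents in `SL(2, ℤ)`.

* `castQ_uZ`, `conjD_castQ_uZ`, `castQ_lZ`, `conjD_castQ_lZ` : the four base families;
* **`hom_upper_eq_one`**, **`hom_lower_eq_one`** : for a COMMUTATIVE target `A`, a homomorphism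
  `Φ : DeltaQ N q →* A` which kills `(1 m; 0 1)`, `(1 m/q; 0 1)` (resp. `(1 0; N m 1)`,
  `(1 0; q N m 1)`) for all `m ∈ ℤ` kills `(1 t; 0 1)` for all `t ∈ ℤ[1/q]` (resp. `(1 0; t 1)` for
  all `t ∈ N ℤ[1/q]`).
-/

set_option autoImplicit false

namespace Fermat.Agent.GM.Amalgam

open Matrix Matrix.SpecialLinearGroup CongruenceSubgroup
open scoped MatrixGroups

variable {N q : ℕ} [hq : Fact q.Prime]

theorem upperQ_mem_DeltaQ {t : ℚ} (ht : t ∈ Zq q) : upperQ t ∈ DeltaQ N q := by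
  refine ⟨fun i j => ?_, ?_⟩
  · fin_cases i <;> fin_cases j
    · exact (Zq q).one_mem
    · exact ht
    · exact (Zq q).zero_mem
    · exact (Zq q).one_mem
  · exact (NZq q N).zero_mem

theorem lowerQ_mem_DeltaQ {t : ℚ} (ht : t ∈ NZq q N) : lowerQ t ∈ DeltaQ N q := by
  refine ⟨fun i j => ?_, ?_⟩
  · fin_cases i <;> fin_cases j
    · exact (Zq q).one_mem
    · exact (Zq q).zero_mem
    · exact NZq_le_Zq ht
    · exact (Zq q).one_mem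
  · exact ht

/-- `diag(q, 1/q)` -/
def diagQ (q : ℕ) [Fact q.Prime] : SLQ :=
  mkQ q 0 0 (q : ℚ)⁻¹ (by rw [mul_inv_cancel₀ (q_ne_zero q)]; ring)

theorem diagQ_mem_DeltaQ : diagQ q ∈ DeltaQ N q := by
  refine ⟨fun i j => ?_, ?_⟩
  · fin_cases i <;> fin_cases j
    · show (q : ℚ) ∈ Zq q
      simp
    · exact (Zq q).zero_mem
    · exact (Zq q).zero_mem
    · show (q : ℚ)⁻¹ ∈ Zq q
      exact ⟨1, 1, by simp⟩
  · exact (NZq q N).zero_mem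

theorem diagQ_mul_upperQ (t : ℚ) : diagQ q * upperQ t = upperQ ((q : ℚ) ^ 2 * t) * diagQ q := by
  have hq0 := q_ne_zero q
  obtain ⟨e00, e01, e10, e11⟩ := mul_entries (diagQ q) (upperQ t)
  obtain ⟨f00, f01, f10, f11⟩ := mul_entries (upperQ ((q : ℚ) ^ 2 * t)) (diagQ q)
  apply Matrix.SpecialLinearGroup.ext
  intro i j
  fin_cases i <;> fin_cases j
  · show (diagQ q * upperQ t) 0 0 = (upperQ ((q : ℚ) ^ 2 * t) * diagQ q) 0 0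
    rw [e00, f00]; simp [diagQ, upperQ]
  · show (diagQ q * upperQ t) 0 1 = (upperQ ((q : ℚ) ^ 2 * t) * diagQ q) 0 1
    rw [e01, f01]; simp [diagQ, upperQ]; field_simp
  · show (diagQ q * upperQ t) 1 0 = (upperQ ((q : ℚ) ^ 2 * t) * diagQ q) 1 0
    rw [e10, f10]; simp [diagQ, upperQ]
  · show (diagQ q * upperQ t) 1 1 = (upperQ ((q : ℚ) ^ 2 * t) * diagQ q) 1 1
    rw [e11, f11]; simp [diagQ, upperQ]

theorem diagQ_mul_lowerQ (t : ℚ) : diagQ q * lowerQ ((q : ℚ) ^ 2 * t) = lowerQ t * diagQ q := by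
  have hq0 := q_ne_zero q
  obtain ⟨e00, e01, e10, e11⟩ := mul_entries (diagQ q) (lowerQ ((q : ℚ) ^ 2 * t))
  obtain ⟨f00, f01, f10, f11⟩ := mul_entries (lowerQ t) (diagQ q)
  apply Matrix.SpecialLinearGroup.ext
  intro i j
  fin_cases i <;> fin_cases j
  · show (diagQ q * lowerQ ((q : ℚ) ^ 2 * t)) 0 0 = (lowerQ t * diagQ q) 0 0
    rw [e00, f00]; simp [diagQ, lowerQ]
  · show (diagQ q * lowerQ ((q : ℚ) ^ 2 * t)) 0 1 = (lowerQ t * diagQ q) 0 1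
    rw [e01, f01]; simp [diagQ, lowerQ]
  · show (diagQ q * lowerQ ((q : ℚ) ^ 2 * t)) 1 0 = (lowerQ t * diagQ q) 1 0
    rw [e10, f10]; simp [diagQ, lowerQ]; field_simp
  · show (diagQ q * lowerQ ((q : ℚ) ^ 2 * t)) 1 1 = (lowerQ t * diagQ q) 1 1
    rw [e11, f11]; simp [diagQ, lowerQ]

section Hom

variable {A : Type*} [CommGroup A] (Φ : ↥(DeltaQ N q) →* A)

theorem hom_congr {x y : SLQ} (h : x = y) (hx : x ∈ DeltaQ N q) (hy : y ∈ DeltaQ N q) :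
    Φ ⟨x, hx⟩ = Φ ⟨y, hy⟩ := by
  subst h
  rfl

theorem hom_upper_sq {t : ℚ} (h1 : upperQ t ∈ DeltaQ N q)
    (h2 : upperQ ((q : ℚ) ^ 2 * t) ∈ DeltaQ N q) :
    Φ ⟨upperQ t, h1⟩ = Φ ⟨upperQ ((q : ℚ) ^ 2 * t), h2⟩ := by
  have hd : diagQ q ∈ DeltaQ N q := diagQ_mem_DeltaQ
  have e : (⟨diagQ q, hd⟩ : ↥(DeltaQ N q)) * ⟨upperQ t, h1⟩ =
      ⟨upperQ ((q : ℚ) ^ 2 * t), h2⟩ * ⟨diagQ q, hd⟩ := Subtype.ext (diagQ_mul_upperQ t)
  have := congrArg Φ e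
  rw [map_mul, map_mul, mul_comm] at this
  exact mul_right_cancel this

theorem hom_lower_sq {t : ℚ} (h1 : lowerQ t ∈ DeltaQ N q)
    (h2 : lowerQ ((q : ℚ) ^ 2 * t) ∈ DeltaQ N q) :
    Φ ⟨lowerQ ((q : ℚ) ^ 2 * t), h2⟩ = Φ ⟨lowerQ t, h1⟩ := by
  have hd : diagQ q ∈ DeltaQ N q := diagQ_mem_DeltaQ
  have e : (⟨diagQ q, hd⟩ : ↥(DeltaQ N q)) * ⟨lowerQ ((q : ℚ) ^ 2 * t), h2⟩ =
      ⟨lowerQ t, h1⟩ * ⟨diagQ q, hd⟩ := Subtype.ext (diagQ_mul_lowerQ t)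
  have := congrArg Φ e
  rw [map_mul, map_mul, mul_comm] at this
  exact mul_right_cancel this

/-- **upper unipotents are killed** -/
theorem hom_upper_eq_one
    (h0 : ∀ (m : ℤ) (h : upperQ (m : ℚ) ∈ DeltaQ N q), Φ ⟨upperQ (m : ℚ), h⟩ = 1)
    (h1 : ∀ (m : ℤ) (h : upperQ ((m : ℚ) / q) ∈ DeltaQ N q), Φ ⟨upperQ ((m : ℚ) / q), h⟩ = 1)
    {t : ℚ} (ht : t ∈ Zq q) (h : upperQ t ∈ DeltaQ N q) : Φ ⟨upperQ t, h⟩ = 1 := by
  have hq0 := q_ne_zero q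
  have key : ∀ (k : ℕ) (m : ℤ) (h : upperQ ((m : ℚ) / (q : ℚ) ^ k) ∈ DeltaQ N q),
      Φ ⟨upperQ ((m : ℚ) / (q : ℚ) ^ k), h⟩ = 1 := by
    intro k
    induction k using Nat.twoStepInduction with
    | zero =>
      intro m h
      have e : (m : ℚ) / (q : ℚ) ^ 0 = m := by simp
      rw [hom_congr Φ (congrArg upperQ e) h (upperQ_mem_DeltaQ (intCast_mem_Zq q m))]
      exact h0 m _
    | one =>
      intro m h
      have e : (m : ℚ) / (q : ℚ) ^ 1 = m / q := by simp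
      rw [hom_congr Φ (congrArg upperQ e) h (upperQ_mem_DeltaQ ⟨1, m, by simp⟩)]
      exact h1 m _
    | more k ih _ =>
      intro m h
      have e : (q : ℚ) ^ 2 * ((m : ℚ) / (q : ℚ) ^ (k + 2)) = m / (q : ℚ) ^ k := by
        rw [pow_add]
        field_simp
      have h2 : upperQ ((q : ℚ) ^ 2 * ((m : ℚ) / (q : ℚ) ^ (k + 2))) ∈ DeltaQ N q := by
        rw [e]
        exact upperQ_mem_DeltaQ (div_pow_mem_Zq q m k)
      rw [hom_upper_sq Φ h h2,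
        hom_congr Φ (congrArg upperQ e) h2 (upperQ_mem_DeltaQ (div_pow_mem_Zq q m k))]
      exact ih m _
  obtain ⟨k, m, rfl⟩ := ht
  exact key k m h

/-- **lower unipotents of level `N` are killed** -/
theorem hom_lower_eq_one
    (h0 : ∀ (m : ℤ) (h : lowerQ ((N : ℚ) * m) ∈ DeltaQ N q), Φ ⟨lowerQ ((N : ℚ) * m), h⟩ = 1)
    (h1 : ∀ (m : ℤ) (h : lowerQ ((q : ℚ) * ((N : ℚ) * m)) ∈ DeltaQ N q),
      Φ ⟨lowerQ ((q : ℚ) * ((N : ℚ) * m)), h⟩ = 1)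
    {t : ℚ} (ht : t ∈ NZq q N) (h : lowerQ t ∈ DeltaQ N q) : Φ ⟨lowerQ t, h⟩ = 1 := by
  have hq0 := q_ne_zero q
  have hmem : ∀ (k : ℕ) (m : ℤ), (N : ℚ) * ((m : ℚ) / (q : ℚ) ^ k) ∈ NZq q N :=
    fun k m => ⟨_, div_pow_mem_Zq q m k, rfl⟩
  have key : ∀ (k : ℕ) (m : ℤ) (h : lowerQ ((N : ℚ) * ((m : ℚ) / (q : ℚ) ^ k)) ∈ DeltaQ N q),
      Φ ⟨lowerQ ((N : ℚ) * ((m : ℚ) / (q : ℚ) ^ k)), h⟩ = 1 := by
    intro k
    induction k using Nat.twoStepInduction with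
    | zero =>
      intro m h
      have e : (N : ℚ) * ((m : ℚ) / (q : ℚ) ^ 0) = (N : ℚ) * m := by simp
      have h' : lowerQ ((N : ℚ) * m) ∈ DeltaQ N q := by
        rw [← e]; exact h
      rw [hom_congr Φ (congrArg lowerQ e) h h']
      exact h0 m _
    | one =>
      intro m h
      -- `N m / q = q² (N m / q) / q²`; use `lower_sq` downwards: `Φ(l(q² s)) = Φ(l(s))`
      have e : (q : ℚ) ^ 2 * ((N : ℚ) * ((m : ℚ) / (q : ℚ) ^ 1)) = (q : ℚ) * ((N : ℚ) * m) := by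
        field_simp
      have h2 : lowerQ ((q : ℚ) ^ 2 * ((N : ℚ) * ((m : ℚ) / (q : ℚ) ^ 1))) ∈ DeltaQ N q := by
        rw [e]
        refine lowerQ_mem_DeltaQ ⟨(q : ℚ) * m, ?_, by ring⟩
        exact (Zq q).mul_mem (by simp) (intCast_mem_Zq q m)
      rw [← hom_lower_sq Φ h h2]
      have h3 : lowerQ ((q : ℚ) * ((N : ℚ) * m)) ∈ DeltaQ N q := by
        rw [← e]; exact h2
      rw [hom_congr Φ (congrArg lowerQ e) h2 h3]
      exact h1 m _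
    | more k ih _ =>
      intro m h
      have e : (q : ℚ) ^ 2 * ((N : ℚ) * ((m : ℚ) / (q : ℚ) ^ (k + 2))) =
          (N : ℚ) * ((m : ℚ) / (q : ℚ) ^ k) := by
        rw [pow_add]
        field_simp
      have h2 : lowerQ ((q : ℚ) ^ 2 * ((N : ℚ) * ((m : ℚ) / (q : ℚ) ^ (k + 2)))) ∈
          DeltaQ N q := by
        rw [e]
        exact lowerQ_mem_DeltaQ (hmem k m)
      rw [← hom_lower_sq Φ h h2,
        hom_congr Φ (congrArg lowerQ e) h2 (lowerQ_mem_DeltaQ (hmem k m))]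
      exact ih m _
  obtain ⟨s, ⟨k, m, rfl⟩, rfl⟩ := ht
  exact key k m h

end Hom

/-! ### the integral unipotents -/

/-- `(1 m; 0 1) ∈ SL(2, ℤ)` -/
def uZ (m : ℤ) : SL(2, ℤ) := mkZ 1 m 0 1 (by ring)

/-- `(1 0; m 1) ∈ SL(2, ℤ)` -/
def lZ (m : ℤ) : SL(2, ℤ) := mkZ 1 0 m 1 (by ring)

omit hq in
theorem uZ_mem_Gamma0 (m : ℤ) : uZ m ∈ Gamma0 N := by
  rw [mem_Gamma0_iff_dvd]
  exact dvd_zero _

omit hq in
theorem lZ_mem_Gamma0 (m : ℤ) : lZ ((N : ℤ) * m) ∈ Gamma0 N := by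
  rw [mem_Gamma0_iff_dvd]
  exact Dvd.intro _ rfl

omit hq in
theorem castQ_uZ (m : ℤ) : castQ (uZ m) = upperQ (m : ℚ) := by
  ext i j
  fin_cases i <;> fin_cases j <;> simp [uZ, upperQ]

omit hq in
theorem castQ_lZ (m : ℤ) : castQ (lZ m) = lowerQ (m : ℚ) := by
  ext i j
  fin_cases i <;> fin_cases j <;> simp [lZ, lowerQ]

theorem conjD_castQ_uZ (m : ℤ) : conjD q (castQ (uZ m)) = upperQ ((m : ℚ) / q) := by
  ext i j
  fin_cases i <;> fin_cases j <;> simp [uZ, upperQ]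

theorem conjD_castQ_lZ (m : ℤ) : conjD q (castQ (lZ m)) = lowerQ ((q : ℚ) * m) := by
  ext i j
  fin_cases i <;> fin_cases j <;> simp [lZ, lowerQ]

/-- **Gluing + elementary matrices** : for a COMMUTATIVE target, if `a` and `b` kill the
unipotents `(1 m; 0 1)` and `(1 0; N m 1)` of `Γ0(N)`, the glued homomorphism on `Γ0(N)[1/q]` kills
every `(1 t; 0 1)`, `t ∈ ℤ[1/q]`, and every `(1 0; t 1)`, `t ∈ N ℤ[1/q]`. -/
theorem exists_glue_int_elementary (hqN : ¬ q ∣ N) {A : Type*} [CommGroup A]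
    (a b : ↥(Gamma0 N) →* A)
    (hab : ∀ g : ↥(Gamma0 (N * q)), a (degenOne N q g) = b (degenDelta N q g))
    (hau : ∀ m : ℤ, a ⟨uZ m, uZ_mem_Gamma0 m⟩ = 1)
    (hal : ∀ m : ℤ, a ⟨lZ ((N : ℤ) * m), lZ_mem_Gamma0 m⟩ = 1)
    (hbu : ∀ m : ℤ, b ⟨uZ m, uZ_mem_Gamma0 m⟩ = 1)
    (hbl : ∀ m : ℤ, b ⟨lZ ((N : ℤ) * m), lZ_mem_Gamma0 m⟩ = 1) :
    ∃ Φ : ↥(DeltaQ N q) →* A,
      (∀ g : ↥(Gamma0 N), Φ ⟨castQ (g : SL(2, ℤ)), Gam_le_DeltaQ (castQ_mem_Gam g)⟩ = a g) ∧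
      (∀ g : ↥(Gamma0 N),
        Φ ⟨conjD q (castQ (g : SL(2, ℤ))), Gam'_le_DeltaQ (conjD_castQ_mem_Gam' g)⟩ = b g) ∧
      (∀ (t : ℚ) (ht : t ∈ Zq q), Φ ⟨upperQ t, upperQ_mem_DeltaQ ht⟩ = 1) ∧
      (∀ (t : ℚ) (ht : t ∈ NZq q N), Φ ⟨lowerQ t, lowerQ_mem_DeltaQ ht⟩ = 1) := by
  obtain ⟨Φ, ⟨h1, h2⟩, -⟩ := existsUnique_glue_int hqN a b hab
  refine ⟨Φ, h1, h2, ?_, ?_⟩
  · intro t ht
    refine hom_upper_eq_one Φ ?_ ?_ ht _
    · intro m h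
      rw [hom_congr Φ (castQ_uZ m).symm h
        (Gam_le_DeltaQ (castQ_mem_Gam ⟨uZ m, uZ_mem_Gamma0 m⟩))]
      exact (h1 ⟨uZ m, uZ_mem_Gamma0 m⟩).trans (hau m)
    · intro m h
      rw [hom_congr Φ (conjD_castQ_uZ m).symm h
        (Gam'_le_DeltaQ (conjD_castQ_mem_Gam' ⟨uZ m, uZ_mem_Gamma0 m⟩))]
      exact (h2 ⟨uZ m, uZ_mem_Gamma0 m⟩).trans (hbu m)
  · intro t ht
    refine hom_lower_eq_one Φ ?_ ?_ ht _
    · intro m h
      have e : lowerQ ((N : ℚ) * m) = castQ (lZ ((N : ℤ) * m)) := by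
        rw [castQ_lZ]; push_cast; rfl
      rw [hom_congr Φ e h
        (Gam_le_DeltaQ (castQ_mem_Gam ⟨lZ ((N : ℤ) * m), lZ_mem_Gamma0 m⟩))]
      exact (h1 ⟨lZ ((N : ℤ) * m), lZ_mem_Gamma0 m⟩).trans (hal m)
    · intro m h
      have e : lowerQ ((q : ℚ) * ((N : ℚ) * m)) = conjD q (castQ (lZ ((N : ℤ) * m))) := by
        rw [conjD_castQ_lZ]; push_cast; rfl
      rw [hom_congr Φ e h
        (Gam'_le_DeltaQ (conjD_castQ_mem_Gam' ⟨lZ ((N : ℤ) * m), lZ_mem_Gamma0 m⟩))]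
      exact (h2 ⟨lZ ((N : ℤ) * m), lZ_mem_Gamma0 m⟩).trans (hbl m)

end Fermat.Agent.GM.Amalgam
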