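import Fermat.Agent.GM.Amalgam.Norms

/-!
# GATE-M / S41-(C1) (helper65): the groups `Γ = Γ0(N)`, `Γ' = δ⁻¹ Γ0(N) δ`, `E = Γ0(Nq)` in `SL₂(ℚ)`

`δ = diag(q, 1)`.  All three are subgroups of `SLQ = SL(2, ℚ)`:

* `castQ : SL(2, ℤ) →* SLQ`, injective;
* `conjD q : SLQ →* SLQ`, `(a b; c d) ↦ (a, b/q; q c, d) = δ⁻¹ (a b; c d) δ`, injective;
* `Gam N = castQ (Γ0(N))`, `Gam' N q = conjD q (Gam N)`, `GamE N q = castQ (Γ0(N q))`;
* `GamE_le_Gam`, `GamE_le_Gam'`, and for `q ∤ N`: `Gam ⊓ Gam' = GamE`;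
* letters: `x ∈ Gam ∖ GamE` is `castQ g`, `g ∈ Γ0(N)`, `q ∤ g₁₀`; `x ∈ Gam' ∖ GamE` is
  `conjD (castQ g)`, `g ∈ Γ0(N)`, `q ∤ g₀₁`; `x ∈ GamE` is `castQ g` with `q ∣ g₁₀`, `q ∤ g₀₀ g₁₁`.
-/

set_option autoImplicit false

namespace Fermat.Agent.GM.Amalgam

open Matrix Matrix.SpecialLinearGroup CongruenceSubgroup
open scoped MatrixGroups

/-- `SL₂(ℚ)` -/
abbrev SLQ := SpecialLinearGroup (Fin 2) ℚ

/-- `SL₂(ℤ) → SL₂(ℚ)` -/
def castQ : SL(2, ℤ) →* SLQ := SpecialLinearGroup.map (Int.castRingHom ℚ)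

@[simp]
theorem castQ_apply (g : SL(2, ℤ)) (i j : Fin 2) : (castQ g) i j = ((g i j : ℤ) : ℚ) := by
  simp [castQ]

theorem castQ_injective : Function.Injective castQ := by
  intro g h hgh
  ext i j
  have := congrArg (fun x : SLQ => x i j) hgh
  simpa using this

/-- an integer matrix of determinant one, as an element of `SL(2, ℤ)` -/
def mkZ (a b c d : ℤ) (h : a * d - b * c = 1) : SL(2, ℤ) :=
  ⟨!![a, b; c, d], by rw [Matrix.det_fin_two_of]; exact h⟩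

@[simp] theorem mkZ_00 (a b c d : ℤ) (h) : (mkZ a b c d h) 0 0 = a := rfl
@[simp] theorem mkZ_01 (a b c d : ℤ) (h) : (mkZ a b c d h) 0 1 = b := rfl
@[simp] theorem mkZ_10 (a b c d : ℤ) (h) : (mkZ a b c d h) 1 0 = c := rfl
@[simp] theorem mkZ_11 (a b c d : ℤ) (h) : (mkZ a b c d h) 1 1 = d := rfl

theorem det_eq_one (g : SL(2, ℤ)) : g 0 0 * g 1 1 - g 0 1 * g 1 0 = 1 := by
  have := g.det_coe
  rwa [Matrix.det_fin_two] at this

section Conj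

variable (q : ℕ) [hq : Fact q.Prime]

theorem q_ne_zero : (q : ℚ) ≠ 0 := by exact_mod_cast hq.out.ne_zero

/-- conjugation by `δ = diag(q, 1)` : `x ↦ δ⁻¹ x δ`, as a function -/
def conjDFun (x : SLQ) : SLQ :=
  ⟨!![x 0 0, x 0 1 / q; q * x 1 0, x 1 1], by
    have h := x.det_coe
    rw [Matrix.det_fin_two] at h
    rw [Matrix.det_fin_two_of]
    have hq0 := q_ne_zero q
    field_simp
    linarith⟩

theorem conjDFun_00 (x : SLQ) : (conjDFun q x) 0 0 = x 0 0 := rfl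
theorem conjDFun_01 (x : SLQ) : (conjDFun q x) 0 1 = x 0 1 / q := rfl
theorem conjDFun_10 (x : SLQ) : (conjDFun q x) 1 0 = q * x 1 0 := rfl
theorem conjDFun_11 (x : SLQ) : (conjDFun q x) 1 1 = x 1 1 := rfl

theorem mul_entries (x y : SLQ) :
    (x * y) 0 0 = x 0 0 * y 0 0 + x 0 1 * y 1 0 ∧ (x * y) 0 1 = x 0 0 * y 0 1 + x 0 1 * y 1 1 ∧
      (x * y) 1 0 = x 1 0 * y 0 0 + x 1 1 * y 1 0 ∧ (x * y) 1 1 = x 1 0 * y 0 1 + x 1 1 * y 1 1 := by
  have h := Matrix.two_mul_expl (x : Matrix (Fin 2) (Fin 2) ℚ) (y : Matrix (Fin 2) (Fin 2) ℚ)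
  have e : ((x * y : SLQ) : Matrix (Fin 2) (Fin 2) ℚ) = (x : Matrix (Fin 2) (Fin 2) ℚ) * y :=
    Matrix.SpecialLinearGroup.coe_mul x y
  refine ⟨?_, ?_, ?_, ?_⟩
  · exact (congrFun (congrFun e 0) 0).trans h.1
  · exact (congrFun (congrFun e 0) 1).trans h.2.1
  · exact (congrFun (congrFun e 1) 0).trans h.2.2.1
  · exact (congrFun (congrFun e 1) 1).trans h.2.2.2

theorem conjDFun_mul (x y : SLQ) : conjDFun q (x * y) = conjDFun q x * conjDFun q y := by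
  have hq0 := q_ne_zero q
  obtain ⟨e00, e01, e10, e11⟩ := mul_entries x y
  obtain ⟨f00, f01, f10, f11⟩ := mul_entries (conjDFun q x) (conjDFun q y)
  apply Matrix.SpecialLinearGroup.ext
  intro i j
  fin_cases i <;> fin_cases j
  · show (conjDFun q (x * y)) 0 0 = (conjDFun q x * conjDFun q y) 0 0
    rw [f00, conjDFun_00, conjDFun_00, conjDFun_00, conjDFun_01, conjDFun_10, e00]
    field_simp
  · show (conjDFun q (x * y)) 0 1 = (conjDFun q x * conjDFun q y) 0 1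
    rw [f01, conjDFun_00, conjDFun_01, conjDFun_01, conjDFun_01, conjDFun_11, e01]
    field_simp
  · show (conjDFun q (x * y)) 1 0 = (conjDFun q x * conjDFun q y) 1 0
    rw [f10, conjDFun_10, conjDFun_10, conjDFun_00, conjDFun_11, conjDFun_10, e10]
    ring
  · show (conjDFun q (x * y)) 1 1 = (conjDFun q x * conjDFun q y) 1 1
    rw [f11, conjDFun_11, conjDFun_10, conjDFun_01, conjDFun_11, conjDFun_11, e11]
    field_simp

theorem conjDFun_one : conjDFun q 1 = 1 := by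
  apply Matrix.SpecialLinearGroup.ext
  intro i j
  fin_cases i <;> fin_cases j
  · show (conjDFun q 1) 0 0 = (1 : SLQ) 0 0
    rw [conjDFun_00]
  · show (conjDFun q 1) 0 1 = (1 : SLQ) 0 1
    rw [conjDFun_01]; simp
  · show (conjDFun q 1) 1 0 = (1 : SLQ) 1 0
    rw [conjDFun_10]; simp
  · show (conjDFun q 1) 1 1 = (1 : SLQ) 1 1
    rw [conjDFun_11]

/-- conjugation by `δ = diag(q, 1)` : `x ↦ δ⁻¹ x δ` -/
def conjD : SLQ →* SLQ where
  toFun := conjDFun q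
  map_one' := conjDFun_one q
  map_mul' := conjDFun_mul q

@[simp] theorem conjD_00 (x : SLQ) : (conjD q x) 0 0 = x 0 0 := rfl
@[simp] theorem conjD_01 (x : SLQ) : (conjD q x) 0 1 = x 0 1 / q := rfl
@[simp] theorem conjD_10 (x : SLQ) : (conjD q x) 1 0 = q * x 1 0 := rfl
@[simp] theorem conjD_11 (x : SLQ) : (conjD q x) 1 1 = x 1 1 := rfl

theorem conjD_injective : Function.Injective (conjD q) := by
  have hq0 := q_ne_zero q
  intro x y hxy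
  ext i j
  have h00 := congrArg (fun z : SLQ => z 0 0) hxy
  have h01 := congrArg (fun z : SLQ => z 0 1) hxy
  have h10 := congrArg (fun z : SLQ => z 1 0) hxy
  have h11 := congrArg (fun z : SLQ => z 1 1) hxy
  simp only [conjD_00, conjD_01, conjD_10, conjD_11] at h00 h01 h10 h11
  fin_cases i <;> fin_cases j
  · exact h00
  · exact (div_left_inj' hq0).1 h01
  · exact mul_left_cancel₀ hq0 h10
  · exact h11

end Conj

/-! ### the three subgroups -/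

/-- `Γ = Γ0(N)` inside `SL₂(ℚ)` -/
def Gam (N : ℕ) : Subgroup SLQ := (Gamma0 N).map castQ

/-- `Γ' = δ⁻¹ Γ0(N) δ` inside `SL₂(ℚ)` -/
def Gam' (N q : ℕ) [Fact q.Prime] : Subgroup SLQ := (Gam N).map (conjD q)

/-- `E = Γ0(N q)` inside `SL₂(ℚ)` -/
def GamE (N q : ℕ) : Subgroup SLQ := (Gamma0 (N * q)).map castQ

variable {N q : ℕ} [hq : Fact q.Prime]

theorem mem_Gamma0_iff_dvd {M : ℕ} {g : SL(2, ℤ)} : g ∈ Gamma0 M ↔ (M : ℤ) ∣ g 1 0 := by
  rw [Gamma0_mem, ZMod.intCast_zmod_eq_zero_iff_dvd]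

theorem mem_Gam_iff {x : SLQ} : x ∈ Gam N ↔ ∃ g : SL(2, ℤ), (N : ℤ) ∣ g 1 0 ∧ castQ g = x := by
  simp only [Gam, Subgroup.mem_map, mem_Gamma0_iff_dvd]

theorem mem_Gam'_iff {x : SLQ} :
    x ∈ Gam' N q ↔ ∃ g : SL(2, ℤ), (N : ℤ) ∣ g 1 0 ∧ conjD q (castQ g) = x := by
  simp only [Gam', Subgroup.mem_map, mem_Gam_iff]
  constructor
  · rintro ⟨y, ⟨g, hg, rfl⟩, rfl⟩
    exact ⟨g, hg, rfl⟩
  · rintro ⟨g, hg, rfl⟩
    exact ⟨castQ g, ⟨g, hg, rfl⟩, rfl⟩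

omit hq in
theorem mem_GamE_iff {x : SLQ} :
    x ∈ GamE N q ↔ ∃ g : SL(2, ℤ), ((N * q : ℕ) : ℤ) ∣ g 1 0 ∧ castQ g = x := by
  simp only [GamE, Subgroup.mem_map, mem_Gamma0_iff_dvd]

omit hq in
theorem GamE_le_Gam : GamE N q ≤ Gam N := by
  intro x hx
  obtain ⟨g, hg, rfl⟩ := mem_GamE_iff.1 hx
  refine mem_Gam_iff.2 ⟨g, dvd_trans ?_ hg, rfl⟩
  exact ⟨(q : ℤ), by push_cast; ring⟩

theorem GamE_le_Gam' : GamE N q ≤ Gam' N q := by
  intro x hx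
  obtain ⟨g, hg, rfl⟩ := mem_GamE_iff.1 hx
  obtain ⟨c', hc'⟩ : (q : ℤ) ∣ g 1 0 := dvd_trans ⟨(N : ℤ), by push_cast; ring⟩ hg
  have hdet := det_eq_one g
  have hq0 : (q : ℤ) ≠ 0 := by exact_mod_cast hq.out.ne_zero
  have hN : (N : ℤ) ∣ c' := by
    obtain ⟨t, ht⟩ := hg
    refine ⟨t, ?_⟩
    have : (q : ℤ) * c' = q * (N * t) := by rw [← hc', ht]; push_cast; ring
    exact mul_left_cancel₀ hq0 this
  refine mem_Gam'_iff.2 ⟨mkZ (g 0 0) (q * g 0 1) c' (g 1 1) ?_, hN, ?_⟩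
  · have h1 := hdet
    rw [hc'] at h1
    linear_combination h1
  · have hq0' := q_ne_zero q
    ext i j
    fin_cases i <;> fin_cases j
    · simp
    · simp only [Fin.zero_eta, Fin.isValue, Fin.mk_one, conjD_01, castQ_apply, mkZ_01]
      push_cast
      field_simp
    · simp only [Fin.mk_one, Fin.isValue, Fin.zero_eta, conjD_10, castQ_apply, mkZ_10]
      rw [hc']; push_cast; ring
    · simp

/-- an element of `Γ` outside `E` has `q ∤ c` -/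
theorem exists_of_mem_Gam_notMem_GamE (hqN : ¬ q ∣ N) {x : SLQ} (hx : x ∈ Gam N)
    (hxE : x ∉ GamE N q) :
    ∃ g : SL(2, ℤ), castQ g = x ∧ ¬ (q : ℤ) ∣ g 1 0 := by
  obtain ⟨g, hg, rfl⟩ := mem_Gam_iff.1 hx
  refine ⟨g, rfl, fun hqc => hxE (mem_GamE_iff.2 ⟨g, ?_, rfl⟩)⟩
  have hcop : IsCoprime (N : ℤ) (q : ℤ) := by
    rw [Int.isCoprime_iff_gcd_eq_one, Int.gcd_natCast_natCast]
    exact Nat.Coprime.symm ((Nat.Prime.coprime_iff_not_dvd hq.out).2 hqN)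
  have := hcop.mul_dvd hg hqc
  simpa using this

/-- an element of `Γ'` outside `E` has `q ∤ b` -/
theorem exists_of_mem_Gam'_notMem_GamE {x : SLQ} (hx : x ∈ Gam' N q) (hxE : x ∉ GamE N q) :
    ∃ g : SL(2, ℤ), conjD q (castQ g) = x ∧ ¬ (q : ℤ) ∣ g 0 1 := by
  obtain ⟨g, hg, rfl⟩ := mem_Gam'_iff.1 hx
  refine ⟨g, rfl, fun hqb => hxE ?_⟩
  obtain ⟨b', hb'⟩ := hqb
  have hdet := det_eq_one g
  have hq0' := q_ne_zero q
  refine mem_GamE_iff.2 ⟨mkZ (g 0 0) b' (q * g 1 0) (g 1 1) ?_, ?_, ?_⟩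
  · have h1 := hdet
    rw [hb'] at h1
    linear_combination h1
  · simp only [mkZ_10]
    obtain ⟨t, ht⟩ := hg
    exact ⟨t, by rw [ht]; push_cast; ring⟩
  · ext i j
    fin_cases i <;> fin_cases j
    · simp
    · simp only [Fin.zero_eta, Fin.isValue, Fin.mk_one, castQ_apply, mkZ_01, conjD_01]
      rw [hb']; push_cast; field_simp
    · simp
    · simp

/-- an element of `E` is `castQ g` with `q ∣ c`, `q ∤ a`, `q ∤ d` -/
theorem exists_of_mem_GamE {x : SLQ} (hx : x ∈ GamE N q) :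
    ∃ g : SL(2, ℤ), castQ g = x ∧ (q : ℤ) ∣ g 1 0 ∧ ¬ (q : ℤ) ∣ g 0 0 ∧ ¬ (q : ℤ) ∣ g 1 1 := by
  obtain ⟨g, hg, rfl⟩ := mem_GamE_iff.1 hx
  have hqc : (q : ℤ) ∣ g 1 0 := dvd_trans ⟨(N : ℤ), by push_cast; ring⟩ hg
  have hdet := det_eq_one g
  have hq1 : ¬ (q : ℤ) ∣ 1 := by
    intro h
    have := Int.eq_one_of_dvd_one (by positivity) h
    exact hq.out.one_lt.ne' (by exact_mod_cast this)
  refine ⟨g, rfl, hqc, fun ha => hq1 ?_, fun hd => hq1 ?_⟩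
  · rw [← hdet]
    exact dvd_sub (Dvd.dvd.mul_right ha _) (Dvd.dvd.mul_left hqc _)
  · rw [← hdet]
    exact dvd_sub (Dvd.dvd.mul_left hd _) (Dvd.dvd.mul_left hqc _)

/-- `Γ ∩ Γ' = E` -/
theorem Gam_inf_Gam' : Gam N ⊓ Gam' N q = GamE N q := by
  apply le_antisymm
  · intro x ⟨h1, h2⟩
    obtain ⟨g, hg, rfl⟩ := mem_Gam_iff.1 h1
    obtain ⟨g', hg', hgg'⟩ := mem_Gam'_iff.1 h2
    refine mem_GamE_iff.2 ⟨g, ?_, rfl⟩
    have h10 := congrArg (fun z : SLQ => z 1 0) hgg'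
    simp only [conjD_10, castQ_apply] at h10
    have h10' : (q : ℤ) * g' 1 0 = g 1 0 := by exact_mod_cast h10
    obtain ⟨t, ht⟩ := hg'
    exact ⟨t, by rw [← h10', ht]; push_cast; ring⟩
  · exact le_inf GamE_le_Gam GamE_le_Gam'

end Fermat.Agent.GM.Amalgam
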