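import Mathlib

/-!
# GATE-M / S41-(C1) (helper65): `q`-adic norm estimates for the ping-pong on `ℚ²`

`ν = padicNorm q`.  For integers `a b c d` and rationals `x y`:

* `norm_P1` : `q ∤ c`, `ν y < ν x = r` ⟹ `ν (a x + b y) ≤ ν (c x + d y) = r`
  (letters of `Γ0(N) ∖ Γ0(Nq)` send `A2 r` into `A1 r`);
* `norm_P2` : `q ∤ b`, `ν x ≤ ν y = r > 0` ⟹ `ν (q c x + d y) < ν (a x + (b/q) y) = q r`
  (letters of `δ⁻¹Γ0(N)δ ∖ Γ0(Nq)` send `A1 r` into `A2 (q r)`);
* `norm_P3a`, `norm_P3b` : `q ∣ c` (so `q ∤ a d`): `A1 r` and `A2 r` are preserved by `Γ0(Nq)`.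
-/

set_option autoImplicit false

namespace Fermat.Agent.GM.Amalgam

variable (q : ℕ) [hq : Fact q.Prime]

local notation "ν" => padicNorm q

theorem norm_int_mul_le (a : ℤ) (x : ℚ) : ν (a * x) ≤ ν x := by
  rw [padicNorm.mul]
  exact mul_le_of_le_one_left (padicNorm.nonneg x) (padicNorm.of_int a)

theorem norm_int_mul_eq {a : ℤ} (ha : ¬ (q : ℤ) ∣ a) (x : ℚ) : ν (a * x) = ν x := by
  rw [padicNorm.mul, (padicNorm.int_eq_one_iff a).2 ha, one_mul]

theorem norm_int_mul_lt {a : ℤ} (ha : (q : ℤ) ∣ a) {x : ℚ} {r : ℚ} (hx : ν x ≤ r) (hr : 0 < r) :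
    ν (a * x) < r := by
  rw [padicNorm.mul]
  have h1 : ν a < 1 := (padicNorm.int_lt_one_iff a).2 ha
  have h0 : 0 ≤ ν a := padicNorm.nonneg _
  have hx0 : 0 ≤ ν x := padicNorm.nonneg _
  calc ν a * ν x ≤ ν a * r := mul_le_mul_of_nonneg_left hx h0
    _ < 1 * r := mul_lt_mul_of_pos_right h1 hr
    _ = r := one_mul r

theorem norm_add_le_of_le {s t r : ℚ} (hs : ν s ≤ r) (ht : ν t ≤ r) : ν (s + t) ≤ r :=
  le_trans padicNorm.nonarchimedean (max_le hs ht)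

theorem norm_add_lt_of_lt {s t r : ℚ} (hs : ν s < r) (ht : ν t < r) : ν (s + t) < r :=
  lt_of_le_of_lt padicNorm.nonarchimedean (max_lt hs ht)

theorem norm_add_eq_left {s t : ℚ} (h : ν t < ν s) : ν (s + t) = ν s := by
  rw [padicNorm.add_eq_max_of_ne (ne_of_gt h), max_eq_left h.le]

theorem norm_add_eq_right {s t : ℚ} (h : ν s < ν t) : ν (s + t) = ν t := by
  rw [padicNorm.add_eq_max_of_ne (ne_of_lt h), max_eq_right h.le]

theorem one_lt_q : (1 : ℚ) < q := by exact_mod_cast hq.out.one_lt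

theorem norm_q : ν (q : ℚ) = (q : ℚ)⁻¹ := padicNorm.padicNorm_p_of_prime

/-- letters of `Γ ∖ E` : `A2 r → A1 r` -/
theorem norm_P1 {a b c d : ℤ} (hc : ¬ (q : ℤ) ∣ c) {x y r : ℚ} (h : ν y < ν x) (hr : ν x = r) :
    ν (a * x + b * y) ≤ ν (c * x + d * y) ∧ ν (c * x + d * y) = r := by
  have h1 : ν (c * x) = r := by rw [norm_int_mul_eq q hc, hr]
  have h2 : ν (d * y) < ν (c * x) := by
    rw [h1, ← hr]
    exact lt_of_le_of_lt (norm_int_mul_le q d y) h
  have h3 : ν (c * x + d * y) = r := by rw [norm_add_eq_left q h2, h1]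
  refine ⟨?_, h3⟩
  rw [h3]
  refine norm_add_le_of_le q ?_ ?_
  · rw [← hr]; exact norm_int_mul_le q a x
  · rw [← hr]; exact le_trans (norm_int_mul_le q b y) h.le

/-- letters of `Γ' ∖ E` : `A1 r → A2 (q r)` -/
theorem norm_P2 {a b c d : ℤ} (hb : ¬ (q : ℤ) ∣ b) {x y r : ℚ} (hr0 : 0 < r) (h : ν x ≤ ν y)
    (hr : ν y = r) :
    ν ((q : ℚ) * c * x + d * y) < ν (a * x + (b : ℚ) / q * y) ∧
      ν (a * x + (b : ℚ) / q * y) = q * r := by
  have hq1 := one_lt_q q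
  have hq0 : (0 : ℚ) < q := lt_trans one_pos hq1
  have hrq : r < q * r := by nlinarith
  have h1 : ν ((b : ℚ) / q * y) = q * r := by
    rw [padicNorm.mul, padicNorm.div, (padicNorm.int_eq_one_iff b).2 hb, norm_q, hr]
    field_simp
  have h2 : ν (a * x) < ν ((b : ℚ) / q * y) := by
    rw [h1]
    exact lt_of_le_of_lt (le_trans (norm_int_mul_le q a x) (h.trans hr.le)) hrq
  have h3 : ν (a * x + (b : ℚ) / q * y) = q * r := by rw [norm_add_eq_right q h2, h1]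
  refine ⟨?_, h3⟩
  rw [h3]
  refine norm_add_lt_of_lt q ?_ ?_
  · have : ν ((q : ℚ) * c * x) ≤ r := by
      rw [mul_assoc, padicNorm.mul, norm_q]
      have h4 : ν (c * x) ≤ r := le_trans (norm_int_mul_le q c x) (h.trans hr.le)
      have h5 : (q : ℚ)⁻¹ ≤ 1 := inv_le_one_of_one_le₀ hq1.le
      calc (q : ℚ)⁻¹ * ν (c * x) ≤ 1 * ν (c * x) :=
            mul_le_mul_of_nonneg_right h5 (padicNorm.nonneg _)
        _ = ν (c * x) := one_mul _
        _ ≤ r := h4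
    exact lt_of_le_of_lt this hrq
  · exact lt_of_le_of_lt (le_trans (norm_int_mul_le q d y) hr.le) hrq

/-- `E` preserves `A1 r` -/
theorem norm_P3a {a b c d : ℤ} (hc : (q : ℤ) ∣ c) (hd : ¬ (q : ℤ) ∣ d) {x y r : ℚ} (hr0 : 0 < r)
    (h : ν x ≤ ν y) (hr : ν y = r) :
    ν (a * x + b * y) ≤ ν (c * x + d * y) ∧ ν (c * x + d * y) = r := by
  have h1 : ν (d * y) = r := by rw [norm_int_mul_eq q hd, hr]
  have h2 : ν (c * x) < ν (d * y) := by
    rw [h1]
    exact norm_int_mul_lt q hc (h.trans hr.le) hr0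
  have h3 : ν (c * x + d * y) = r := by rw [norm_add_eq_right q h2, h1]
  refine ⟨?_, h3⟩
  rw [h3]
  refine norm_add_le_of_le q ?_ ?_
  · exact le_trans (norm_int_mul_le q a x) (h.trans hr.le)
  · exact le_trans (norm_int_mul_le q b y) hr.le

/-- `E` preserves `A2 r` -/
theorem norm_P3b {a b c d : ℤ} (hc : (q : ℤ) ∣ c) (ha : ¬ (q : ℤ) ∣ a) {x y r : ℚ}
    (h : ν y < ν x) (hr : ν x = r) :
    ν (c * x + d * y) < ν (a * x + b * y) ∧ ν (a * x + b * y) = r := by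
  have hr0 : 0 < r := by
    rw [← hr]
    exact lt_of_le_of_lt (padicNorm.nonneg y) h
  have h1 : ν (a * x) = r := by rw [norm_int_mul_eq q ha, hr]
  have h2 : ν (b * y) < ν (a * x) := by
    rw [h1, ← hr]
    exact lt_of_le_of_lt (norm_int_mul_le q b y) h
  have h3 : ν (a * x + b * y) = r := by rw [norm_add_eq_left q h2, h1]
  refine ⟨?_, h3⟩
  rw [h3]
  refine norm_add_lt_of_lt q ?_ ?_
  · exact norm_int_mul_lt q hc hr.le hr0
  · rw [← hr]
    exact lt_of_le_of_lt (norm_int_mul_le q d y) h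

end Fermat.Agent.GM.Amalgam
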