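import Mathlib

/-!
# GATE-M / S41-(C1) (helper65): injectivity of an amalgam into a group, and GLUING of homomorphisms

Mathlib only.  `Monoid.PushoutI φ` is the amalgamated product of the groups `G i` over the base
`H` (maps `φ i : H →* G i`).

* `PushoutI.lift_comp_ofCoprodI` : `lift f k` on the image of the free product is `CoprodI.lift f`;
* `notMem_range_of_mem_transversal` : a letter `≠ 1` of a normal word is outside the base;
* **`lift_injective_of_reduced`** : if `φ i` and `k` are injective and no nonempty reduced word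
  (letters outside the base, consecutive indices distinct) is sent by `CoprodI.lift f` into
  `k.range`, then `PushoutI.lift f k : PushoutI φ →* K` is INJECTIVE (normal form theorem);
* **`exists_glue_of_reduced`** : subgroup form: a family of subgroups `S i ≥ E` of a group `G₀` such
  that no nonempty reduced word of `⊔ (S i ∖ E)` lies in `E`; homomorphisms `a i : S i →* A`
  (`A` ANY group) with a common restriction to `E` glue to a homomorphism on `⨆ i, S i`;
* `eq_of_eqOn_iSup` : uniqueness of the glued homomorphism.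
-/

set_option autoImplicit false

namespace Fermat.Agent.GM.Amalgam

open Monoid Monoid.PushoutI Monoid.CoprodI Function

section Abstract

variable {ι : Type*} {G : ι → Type*} {H K : Type*} [∀ i, Group (G i)] [Group H] [Group K]
  {φ : ∀ i, H →* G i}

/-- `lift f k` restricted to the free product is `CoprodI.lift f` -/
theorem lift_ofCoprodI (f : ∀ i, G i →* K) (k : H →* K) (hf : ∀ i, (f i).comp (φ i) = k)
    (x : CoprodI G) : PushoutI.lift f k hf (ofCoprodI x) = CoprodI.lift f x := by
  have h : (PushoutI.lift f k hf).comp (ofCoprodI (φ := φ)) = CoprodI.lift f := by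
    apply CoprodI.ext_hom
    intro i
    ext g
    simp [ofCoprodI_of]
  exact DFunLike.congr_fun h x

/-- a non-identity element of the transversal is outside the base -/
theorem notMem_range_of_mem_transversal (d : NormalWord.Transversal φ) {i : ι} {g : G i}
    (hg : g ∈ d.set i) (hg1 : g ≠ 1) : g ∉ (φ i).range := by
  intro hr
  have hc := d.compl i
  have hinj := hc.1
  have h1 : (fun x : (φ i).range × d.set i => (x.1 : G i) * x.2)
      (⟨g, hr⟩, ⟨1, d.one_mem i⟩) =
      (fun x : (φ i).range × d.set i => (x.1 : G i) * x.2) (1, ⟨g, hg⟩) := by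
    simp
  have h2 := hinj h1
  have h3 := congrArg (fun x => ((x.2 : d.set i) : G i)) h2
  simp only at h3
  exact hg1 h3.symm

/-- **Normal form criterion for injectivity of an amalgam into a group.** -/
theorem lift_injective_of_reduced (hφ : ∀ i, Injective (φ i)) (f : ∀ i, G i →* K) (k : H →* K)
    (hf : ∀ i, (f i).comp (φ i) = k) (hk : Injective k)
    (hred : ∀ w : CoprodI.Word G, Reduced φ w → w ≠ CoprodI.Word.empty →
      CoprodI.lift f w.prod ∉ k.range) :
    Injective (PushoutI.lift f k hf) := by
  classical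
  rw [injective_iff_map_eq_one]
  intro x hx
  obtain ⟨d⟩ := NormalWord.transversal_nonempty φ hφ
  set w : NormalWord d := NormalWord.equiv x with hw
  have hxw : w.prod = x := NormalWord.equiv.symm_apply_apply x
  have hredw : Reduced φ w.toWord := by
    intro l hl
    exact notMem_range_of_mem_transversal d (w.normalized l.1 l.2 hl) (w.ne_one l hl)
  have hx' : k w.head * CoprodI.lift f w.toWord.prod = 1 := by
    rw [← hx, ← hxw, NormalWord.prod, map_mul, PushoutI.lift_base, lift_ofCoprodI]
  have hempty : w.toWord = CoprodI.Word.empty := by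
    by_contra hne
    refine hred w.toWord hredw hne ⟨w.head⁻¹, ?_⟩
    rw [map_inv]
    exact inv_eq_of_mul_eq_one_right hx'
  rw [hempty, CoprodI.Word.prod_empty, map_one, mul_one] at hx'
  have hhead : w.head = 1 := hk (by rw [hx', map_one])
  rw [← hxw, NormalWord.prod, hempty, CoprodI.Word.prod_empty, map_one, mul_one, hhead, map_one]

end Abstract

/-! ### Subgroup form and gluing -/

section Subgroups

variable {G₀ : Type*} [Group G₀] {ι : Type*} (S : ι → Subgroup G₀) (E : Subgroup G₀)
  (hE : ∀ i, E ≤ S i)

/-- the diagram `E → S i` -/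
def incl (i : ι) : E →* S i := Subgroup.inclusion (hE i)

theorem incl_injective (i : ι) : Injective (incl S E hE i) :=
  Subgroup.inclusion_injective (hE i)

/-- the canonical map of the amalgam `*_E S i` to `G₀` -/
def toGroup : PushoutI (incl S E hE) →* G₀ :=
  PushoutI.lift (fun i => (S i).subtype) E.subtype (fun i => by ext x; rfl)

/-- the hypothesis "no nonempty reduced word lies in `E`" -/
def NoReducedInBase : Prop :=
  ∀ w : CoprodI.Word (fun i => S i), Reduced (incl S E hE) w → w ≠ CoprodI.Word.empty →
    CoprodI.lift (fun i => (S i).subtype) w.prod ∉ E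

theorem toGroup_injective (h : NoReducedInBase S E hE) : Injective (toGroup S E hE) := by
  refine lift_injective_of_reduced (incl_injective S E hE) _ _ _ E.subtype_injective ?_
  intro w hw hne hmem
  refine h w hw hne ?_
  obtain ⟨e, he⟩ := hmem
  rw [← he]
  exact e.2

theorem iSup_le_range_toGroup [Nonempty ι] : ⨆ i, S i ≤ (toGroup S E hE).range := by
  refine iSup_le fun i => ?_
  intro x hx
  exact ⟨PushoutI.of i ⟨x, hx⟩, by simp [toGroup]⟩

/-- **GLUING.**  If no nonempty reduced word in the `S i ∖ E` lies in `E`, homomorphisms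
`a i : S i →* A` with a common restriction `a₀` to `E` glue to `Φ : ⨆ i, S i →* A`. -/
theorem exists_glue_of_reduced [Nonempty ι] (h : NoReducedInBase S E hE) {A : Type*} [Group A]
    (a : ∀ i, S i →* A) (a₀ : E →* A) (ha : ∀ i, (a i).comp (incl S E hE i) = a₀) :
    ∃ Φ : ↥(⨆ i, S i) →* A, ∀ (i : ι) (x : G₀) (hx : x ∈ S i),
      Φ ⟨x, (le_iSup S i) hx⟩ = a i ⟨x, hx⟩ := by
  have hinj := toGroup_injective S E hE h
  let Ψ : PushoutI (incl S E hE) →* A := PushoutI.lift a a₀ ha
  let e := MonoidHom.ofInjective hinj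
  let Φ : ↥(⨆ i, S i) →* A :=
    (Ψ.comp e.symm.toMonoidHom).comp (Subgroup.inclusion (iSup_le_range_toGroup S E hE))
  refine ⟨Φ, fun i x hx => ?_⟩
  have h1 : e (PushoutI.of i ⟨x, hx⟩) =
      Subgroup.inclusion (iSup_le_range_toGroup S E hE) ⟨x, (le_iSup S i) hx⟩ := by
    refine Subtype.ext ?_
    show toGroup S E hE (PushoutI.of i ⟨x, hx⟩) = x
    simp [toGroup]
  show Ψ (e.symm (Subgroup.inclusion (iSup_le_range_toGroup S E hE) ⟨x, (le_iSup S i) hx⟩)) = _
  rw [← h1, MulEquiv.symm_apply_apply]
  simp [Ψ]

/-- uniqueness: two homomorphisms on `⨆ i, S i` agreeing on every `S i` are equal -/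
theorem eq_of_eqOn_iSup {A : Type*} [Group A] (Φ Φ' : ↥(⨆ i, S i) →* A)
    (h : ∀ (i : ι) (x : G₀) (hx : x ∈ S i),
      Φ ⟨x, (le_iSup S i) hx⟩ = Φ' ⟨x, (le_iSup S i) hx⟩) : Φ = Φ' := by
  ext ⟨x, hx⟩
  induction hx using Subgroup.iSup_induction' with
  | hp i x hx => exact h i x hx
  | h1 => exact (map_one Φ).trans (map_one Φ').symm
  | hmul x y hx hy ihx ihy =>
    have e : (⟨x * y, Subgroup.mul_mem _ hx hy⟩ : ↥(⨆ i, S i)) = ⟨x, hx⟩ * ⟨y, hy⟩ := rfl
    rw [e, map_mul, map_mul, ihx, ihy]

end Subgroups

end Fermat.Agent.GM.Amalgam
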