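import Fermat.Agent.GM.Amalgam.Groups
import Fermat.Agent.GM.Amalgam.PushoutInj

/-!
# GATE-M / S41-(C1) (helper65): the `q`-adic ping-pong for `Γ0(N) *_{Γ0(Nq)} δ⁻¹Γ0(N)δ`

`SL₂(ℚ)` acts on `ℚ × ℚ` (column vectors).  With `ν = padicNorm q`:

* `A1 v r` : `ν v.1 ≤ ν v.2 = r`,     `A2 v r` : `ν v.2 < ν v.1 = r`;
* letters of `Γ ∖ E` send `A2 r` into `A1 r`; letters of `Γ' ∖ E` send `A1 r` into `A2 (q r)`;
  `E` preserves both (`act_Gam_letter`, `act_Gam'_letter`, `act_GamE_A1`, `act_GamE_A2`);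
* **`noReducedInBase`** : for `q ∤ N` no nonempty reduced word in `(Γ ∖ E) ∪ (Γ' ∖ E)` lies in `E`;
* **`exists_glue_Gamma0`**, `hom_ext_sup` : homomorphisms on `Γ` and `Γ'` (ANY target group) which
  agree on `E` glue, uniquely, to a homomorphism on `Γ ⊔ Γ'`.
-/

set_option autoImplicit false

namespace Fermat.Agent.GM.Amalgam

open Monoid Monoid.PushoutI Monoid.CoprodI Function

/-- the action of `SL₂(ℚ)` on column vectors `ℚ × ℚ` -/
def act (x : SLQ) (v : ℚ × ℚ) : ℚ × ℚ :=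
  (x 0 0 * v.1 + x 0 1 * v.2, x 1 0 * v.1 + x 1 1 * v.2)

theorem act_mul (x y : SLQ) (v : ℚ × ℚ) : act (x * y) v = act x (act y v) := by
  obtain ⟨e00, e01, e10, e11⟩ := mul_entries x y
  ext
  · simp only [act, e00, e01]; ring
  · simp only [act, e10, e11]; ring

theorem act_one (v : ℚ × ℚ) : act 1 v = v := by
  ext <;> simp [act]

section Norm

variable (q : ℕ) [hq : Fact q.Prime]

local notation "ν" => padicNorm q

/-- `ν v.1 ≤ ν v.2 = r` -/
def A1 (v : ℚ × ℚ) (r : ℚ) : Prop := ν v.1 ≤ ν v.2 ∧ ν v.2 = r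

/-- `ν v.2 < ν v.1 = r` -/
def A2 (v : ℚ × ℚ) (r : ℚ) : Prop := ν v.2 < ν v.1 ∧ ν v.1 = r

variable {q}

omit hq in
theorem not_A1_of_A2 {v : ℚ × ℚ} {r s : ℚ} (h1 : A1 q v r) (h2 : A2 q v s) : False :=
  absurd h1.1 (not_le.2 h2.1)

omit hq in
theorem A1_level {v : ℚ × ℚ} {r s : ℚ} (h1 : A1 q v r) (h2 : A1 q v s) : r = s :=
  h1.2.symm.trans h2.2

omit hq in
theorem A2_level {v : ℚ × ℚ} {r s : ℚ} (h1 : A2 q v r) (h2 : A2 q v s) : r = s :=
  h1.2.symm.trans h2.2

omit hq in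
theorem A1_base : A1 q ((0 : ℚ), (1 : ℚ)) 1 := by
  simp [A1]

omit hq in
theorem A2_base : A2 q ((1 : ℚ), (0 : ℚ)) 1 := by
  simp [A2]

variable {N : ℕ}

/-- letters of `Γ ∖ E` : `A2 r → A1 r` -/
theorem act_Gam_letter (hqN : ¬ q ∣ N) {x : SLQ} (hx : x ∈ Gam N) (hxE : x ∉ GamE N q)
    {v : ℚ × ℚ} {r : ℚ} (h : A2 q v r) : A1 q (act x v) r := by
  obtain ⟨g, rfl, hg⟩ := exists_of_mem_Gam_notMem_GamE hqN hx hxE
  have := norm_P1 q (a := g 0 0) (b := g 0 1) (d := g 1 1) hg h.1 h.2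
  simpa [act, A1] using this

/-- letters of `Γ' ∖ E` : `A1 r → A2 (q r)` -/
theorem act_Gam'_letter {x : SLQ} (hx : x ∈ Gam' N q) (hxE : x ∉ GamE N q)
    {v : ℚ × ℚ} {r : ℚ} (hr : 0 < r) (h : A1 q v r) : A2 q (act x v) (q * r) := by
  obtain ⟨g, rfl, hg⟩ := exists_of_mem_Gam'_notMem_GamE hx hxE
  have := norm_P2 q (a := g 0 0) (c := g 1 0) (d := g 1 1) hg hr h.1 h.2
  simpa [act, A2, mul_assoc] using this

/-- `E` preserves `A1 r` -/
theorem act_GamE_A1 {x : SLQ} (hx : x ∈ GamE N q) {v : ℚ × ℚ} {r : ℚ} (hr : 0 < r)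
    (h : A1 q v r) : A1 q (act x v) r := by
  obtain ⟨g, rfl, hc, ha, hd⟩ := exists_of_mem_GamE hx
  have := norm_P3a q (a := g 0 0) (b := g 0 1) hc hd hr h.1 h.2
  simpa [act, A1] using this

/-- `E` preserves `A2 r` -/
theorem act_GamE_A2 {x : SLQ} (hx : x ∈ GamE N q) {v : ℚ × ℚ} {r : ℚ}
    (h : A2 q v r) : A2 q (act x v) r := by
  obtain ⟨g, rfl, hc, ha, hd⟩ := exists_of_mem_GamE hx
  have := norm_P3b q (d := g 1 1) (b := g 0 1) hc ha h.1 h.2
  simpa [act, A2] using this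

end Norm

/-! ### the family `Γ, Γ'` and the key induction -/

section Family

variable (N q : ℕ) [hq : Fact q.Prime]

/-- the family `true ↦ Γ`, `false ↦ Γ'` -/
def fam : Bool → Subgroup SLQ
  | true => Gam N
  | false => Gam' N q

theorem fam_le (b : Bool) : GamE N q ≤ fam N q b := by
  cases b
  · exact GamE_le_Gam'
  · exact GamE_le_Gam

theorem iSup_fam : ⨆ b, fam N q b = Gam N ⊔ Gam' N q := by
  rw [iSup_bool_eq]
  rfl

/-- the evaluation of words in `SL₂(ℚ)` -/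
def evalW : CoprodI (fun b => ↥(fam N q b)) →* SLQ :=
  CoprodI.lift (fun b => (fam N q b).subtype)

variable {N q}

theorem word_eq_empty_of_fstIdx {ι : Type*} {M : ι → Type*} [∀ i, Monoid (M i)]
    {w : CoprodI.Word M} (h : w.fstIdx = none) : w = CoprodI.Word.empty := by
  apply CoprodI.Word.ext
  simp only [CoprodI.Word.fstIdx, Option.map_eq_none_iff, List.head?_eq_none_iff] at h
  simpa using h

theorem mem_range_incl_iff (b : Bool) (g : fam N q b) :
    g ∈ (incl (fam N q) (GamE N q) (fam_le N q) b).range ↔ (g : SLQ) ∈ GamE N q := by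
  constructor
  · rintro ⟨e, rfl⟩
    exact e.2
  · intro h
    exact ⟨⟨g, h⟩, rfl⟩

/-- **the key induction** -/
theorem key_pingpong (hqN : ¬ q ∣ N) (w : CoprodI.Word (fun b => ↥(fam N q b))) :
    Reduced (incl (fam N q) (GamE N q) (fam_le N q)) w →
    ∀ j, w.fstIdx = some j → ∀ (v : ℚ × ℚ) (r : ℚ), 0 < r →
      (j = true → A2 q v r) → (j = false → A1 q v r) →
      ∃ n : ℕ, (A1 q (act (evalW N q w.prod)⁻¹ v) ((q : ℚ) ^ n * r) ∨
          (A2 q (act (evalW N q w.prod)⁻¹ v) ((q : ℚ) ^ n * r) ∧ 1 ≤ n)) ∧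
        (j = false → 1 ≤ n) := by
  induction w using CoprodI.Word.consRecOn with
  | empty =>
    intro _ j hj
    simp [CoprodI.Word.fstIdx] at hj
  | cons i g w' h1 h2 ih =>
    intro hw j hj v r hr hA2 hA1
    rw [CoprodI.Word.fstIdx_cons] at hj
    obtain rfl := Option.some.inj hj
    have hgE : (g : SLQ) ∉ GamE N q := by
      have := hw ⟨i, g⟩ (by simp [CoprodI.Word.cons])
      rwa [mem_range_incl_iff] at this
    have hginvE : ((g : SLQ))⁻¹ ∉ GamE N q := fun h => hgE (by simpa using inv_mem h)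
    have hw' : Reduced (incl (fam N q) (GamE N q) (fam_le N q)) w' :=
      fun l hl => hw l (by simp [CoprodI.Word.cons, hl])
    have hprod : evalW N q (CoprodI.Word.cons (M := fun b => ↥(fam N q b)) g w' h1 h2).prod = (g : SLQ) * evalW N q w'.prod := by
      rw [CoprodI.Word.prod_cons, map_mul]
      simp [evalW]
    have hout : act (evalW N q (CoprodI.Word.cons (M := fun b => ↥(fam N q b)) g w' h1 h2).prod)⁻¹ v =
        act (evalW N q w'.prod)⁻¹ (act ((g : SLQ))⁻¹ v) := by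
      rw [hprod, mul_inv_rev, act_mul]
    rw [hout]
    have hq0 : (0 : ℚ) < q := lt_trans one_pos (one_lt_q q)
    cases i with
    | false =>
      have hv' : A2 q (act ((g : SLQ))⁻¹ v) (q * r) :=
        act_Gam'_letter (N := N) (inv_mem g.2) hginvE hr (hA1 rfl)
      rcases hfi : w'.fstIdx with _ | j'
      · have he := word_eq_empty_of_fstIdx hfi
        subst he
        refine ⟨1, Or.inr ⟨?_, le_rfl⟩, fun _ => le_rfl⟩
        simpa [act_one] using hv'
      · have hj' : j' = true := by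
          cases j'
          · exact absurd hfi h1
          · rfl
        subst hj'
        obtain ⟨n, hn, -⟩ := ih hw' true hfi _ (q * r) (mul_pos hq0 hr) (fun _ => hv')
          (fun h => by cases h)
        refine ⟨n + 1, ?_, fun _ => Nat.succ_le_succ (Nat.zero_le _)⟩
        have e : (q : ℚ) ^ (n + 1) * r = (q : ℚ) ^ n * (q * r) := by ring
        rw [e]
        rcases hn with hn | ⟨hn, -⟩
        · exact Or.inl hn
        · exact Or.inr ⟨hn, Nat.succ_le_succ (Nat.zero_le _)⟩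
    | true =>
      have hv' : A1 q (act ((g : SLQ))⁻¹ v) r :=
        act_Gam_letter hqN (inv_mem g.2) hginvE (hA2 rfl)
      rcases hfi : w'.fstIdx with _ | j'
      · have he := word_eq_empty_of_fstIdx hfi
        subst he
        refine ⟨0, Or.inl ?_, fun h => by cases h⟩
        simpa [act_one] using hv'
      · have hj' : j' = false := by
          cases j'
          · rfl
          · exact absurd hfi h1
        subst hj'
        obtain ⟨n, hn, hn1⟩ := ih hw' false hfi _ r hr (fun h => by cases h) (fun _ => hv')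
        exact ⟨n, hn, fun h => by cases h⟩

/-- **No nonempty reduced word lies in `E`.** -/
theorem noReducedInBase (hqN : ¬ q ∣ N) :
    NoReducedInBase (fam N q) (GamE N q) (fam_le N q) := by
  intro w hw hne hmem
  have hmem' : evalW N q w.prod ∈ GamE N q := hmem
  have hinv : (evalW N q w.prod)⁻¹ ∈ GamE N q := inv_mem hmem'
  have hq1 := one_lt_q q
  rcases hfi : w.fstIdx with _ | j
  · exact hne (word_eq_empty_of_fstIdx hfi)
  · cases j with
    | false =>
      obtain ⟨n, hn, hn1⟩ := key_pingpong hqN w hw false hfi (0, 1) 1 one_pos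
        (fun h => by cases h) (fun _ => A1_base)
      have hout := act_GamE_A1 hinv one_pos (A1_base (q := q))
      have h1n := hn1 rfl
      rcases hn with hn | ⟨hn, -⟩
      · have h := A1_level hn hout
        rw [mul_one] at h
        exact absurd h (ne_of_gt (one_lt_pow₀ hq1 (by omega)))
      · exact not_A1_of_A2 hout hn
    | true =>
      obtain ⟨n, hn, -⟩ := key_pingpong hqN w hw true hfi (1, 0) 1 one_pos
        (fun _ => A2_base) (fun h => by cases h)
      have hout := act_GamE_A2 hinv (A2_base (q := q))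
      rcases hn with hn | ⟨hn, h1n⟩
      · exact not_A1_of_A2 hn hout
      · have h := A2_level hn hout
        rw [mul_one] at h
        exact absurd h (ne_of_gt (one_lt_pow₀ hq1 (by omega)))

end Family

/-! ### gluing on `Γ ⊔ Γ'` -/

section Glue

variable {N q : ℕ} [hq : Fact q.Prime]

/-- uniqueness on a join of two subgroups -/
theorem hom_ext_sup {G₀ A : Type*} [Group G₀] [Group A] {S T : Subgroup G₀}
    (Φ Φ' : ↥(S ⊔ T) →* A)
    (hS : ∀ (x : G₀) (hx : x ∈ S), Φ ⟨x, Subgroup.mem_sup_left hx⟩ =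
      Φ' ⟨x, Subgroup.mem_sup_left hx⟩)
    (hT : ∀ (x : G₀) (hx : x ∈ T), Φ ⟨x, Subgroup.mem_sup_right hx⟩ =
      Φ' ⟨x, Subgroup.mem_sup_right hx⟩) : Φ = Φ' := by
  have hle : S ⊔ T ≤ (MonoidHom.eqLocus Φ Φ').map (S ⊔ T).subtype := by
    refine sup_le ?_ ?_
    · intro x hx
      exact ⟨⟨x, Subgroup.mem_sup_left hx⟩, hS x hx, rfl⟩
    · intro x hx
      exact ⟨⟨x, Subgroup.mem_sup_right hx⟩, hT x hx, rfl⟩
  ext ⟨x, hx⟩
  obtain ⟨y, hy, hyx⟩ := hle hx
  have : y = ⟨x, hx⟩ := Subtype.ext hyx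
  rw [← this]
  exact hy

/-- **GLUING for `Γ0(N)` and `δ⁻¹Γ0(N)δ` over `Γ0(Nq)`** (`q ∤ N`, any target group). -/
theorem exists_glue_Gamma0 (hqN : ¬ q ∣ N) {A : Type*} [Group A] (a : ↥(Gam N) →* A)
    (a' : ↥(Gam' N q) →* A)
    (hag : ∀ (x : SLQ) (hx : x ∈ GamE N q),
      a ⟨x, GamE_le_Gam hx⟩ = a' ⟨x, GamE_le_Gam' hx⟩) :
    ∃ Φ : ↥(Gam N ⊔ Gam' N q) →* A,
      (∀ (x : SLQ) (hx : x ∈ Gam N), Φ ⟨x, Subgroup.mem_sup_left hx⟩ = a ⟨x, hx⟩) ∧
      (∀ (x : SLQ) (hx : x ∈ Gam' N q), Φ ⟨x, Subgroup.mem_sup_right hx⟩ = a' ⟨x, hx⟩) := by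
  let af : ∀ b : Bool, ↥(fam N q b) →* A := fun b =>
    match b with
    | true => a
    | false => a'
  let a₀ : ↥(GamE N q) →* A := a.comp (Subgroup.inclusion GamE_le_Gam)
  have haf : ∀ b, (af b).comp (incl (fam N q) (GamE N q) (fam_le N q) b) = a₀ := by
    intro b
    cases b
    · ext ⟨x, hx⟩
      exact (hag x hx).symm
    · ext ⟨x, hx⟩
      rfl
  obtain ⟨Φ₀, hΦ₀⟩ := exists_glue_of_reduced (fam N q) (GamE N q) (fam_le N q)
    (noReducedInBase hqN) af a₀ haf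
  refine ⟨Φ₀.comp (Subgroup.inclusion (le_of_eq (iSup_fam N q).symm)), ?_, ?_⟩
  · intro x hx
    exact hΦ₀ true x hx
  · intro x hx
    exact hΦ₀ false x hx

end Glue

end Fermat.Agent.GM.Amalgam
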